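import Fermat.Agent.MU.S56.W2.EC.Defs

section MergeWrap_S56_W2_EC_Brauer_Defs -- from S56/W2/EC/Brauer/Defs.lean

set_option autoImplicit false

namespace Fermat.Agent.S56.EC

open Fermat.Agent.F4 Polynomial

variable {p : ℕ} [Fact p.Prime] {Γ : Type} [Group Γ]

open Classical in
/-- The characteristic polynomial of `γ` on `A` (`1` if `A` is not finite). -/
noncomputable def repCharpoly (A : Rep.{0} (ZMod p) Γ) (γ : Γ) : (ZMod p)[X] :=
  if h : Module.Finite (ZMod p) A then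
    haveI := h
    LinearMap.charpoly (A.ρ γ)
  else 1

lemma repCharpoly_eq (A : Rep.{0} (ZMod p) Γ) [Module.Finite (ZMod p) A] (γ : Γ) :
    repCharpoly A γ = LinearMap.charpoly (A.ρ γ) := by
  unfold repCharpoly
  exact dif_pos ‹Module.Finite (ZMod p) A›

/-- `γ` is `p`-regular. -/
def IsPReg (p : ℕ) (γ : Γ) : Prop := (orderOf γ).Coprime p

/-- The number of orbits of size `r` of `⟨γ⟩` on `Γ ⧸ C`. -/
noncomputable def orbCount (γ : Γ) (C : Subgroup Γ) (r : ℕ) : ℕ :=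
  Nat.card {ω : MulAction.orbitRel.Quotient (Subgroup.zpowers γ) (Γ ⧸ C) //
    Nat.card ω.orbit = r}

/-- **(B1)** Brauer–Nesbitt. -/
def BrauerNesbitt (p : ℕ) [Fact p.Prime] (Γ : Type) [Group Γ] : Prop :=
  ∀ (ι : Type) [Fintype ι] (X : ι → Rep.{0} (ZMod p) Γ),
    (∀ i, Module.Finite (ZMod p) (X i)) → ∀ (nP nM : ι → ℕ),
    (∀ γ : Γ, IsPReg p γ →
      ∏ i, repCharpoly (X i) γ ^ nP i = ∏ i, repCharpoly (X i) γ ^ nM i) →
    ∀ d : Rep.{0} (ZMod p) Γ → ℤ, IsAdditiveFn d →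
      ∑ i, (nP i : ℤ) * d (X i) = ∑ i, (nM i : ℤ) * d (X i)

/-- **(B2)** the characteristic polynomial of `γ` on `Hom(𝔽_p[Γ/C], A)`. -/
def IndCharpoly (p : ℕ) [Fact p.Prime] (Γ : Type) [Group Γ] : Prop :=
  ∀ (C : Subgroup Γ) (A : Rep.{0} (ZMod p) Γ), Module.Finite (ZMod p) A → ∀ γ : Γ,
    repCharpoly (homRep (permRep (ZMod p) C) A) γ =
      ∏ᶠ ω : MulAction.orbitRel.Quotient (Subgroup.zpowers γ) (Γ ⧸ C),
        expand (ZMod p) (Nat.card ω.orbit) (repCharpoly A (γ ^ Nat.card ω.orbit))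

/-- **(B3)** Artin's induction theorem on `p`-regular elements, with orbit counts. -/
def ArtinRefined (p : ℕ) [Fact p.Prime] (Γ : Type) [Group Γ] : Prop :=
  ∃ z : Subgroup Γ → ℤ, (∀ B, z B ≠ 0 → IsCyclic B ∧ ¬ p ∣ Nat.card B) ∧
    ∀ γ : Γ, IsPReg p γ → ∀ r : ℕ,
      ∑ᶠ B : Subgroup Γ, z B * (orbCount γ B r : ℤ) = if r = 1 then (Nat.card Γ : ℤ) else 0

end Fermat.Agent.S56.EC
end MergeWrap_S56_W2_EC_Brauer_Defs
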