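import Mathlib
import Fermat.Agent.MU.S56.W2.EC.Brauer.Defs

section MergeWrap_S56_W2_EC_Brauer_BN_Tools -- from S56/W2/EC/Brauer/BN/Tools.lean

set_option autoImplicit false
set_option linter.style.haveILetI false

namespace Fermat.Agent.S56.EC

open Fermat.Agent.F4 Polynomial

variable {p : ℕ} [Fact p.Prime] {Γ : Type} [Group Γ]

/-- An equivariant isomorphism exists. -/
def BNIso (A B : Rep.{0} (ZMod p) Γ) : Prop :=
  ∃ e : A ≃ₗ[ZMod p] B, ∀ (γ : Γ) (x : A), e (A.ρ γ x) = B.ρ γ (e x)

/-- `W` is stable under `Γ`. -/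
def BNStable (A : Rep.{0} (ZMod p) Γ) (W : Submodule (ZMod p) A) : Prop :=
  ∀ (γ : Γ), ∀ w ∈ W, A.ρ γ w ∈ W

/-- `A` is a simple `𝔽_p[Γ]`-module. -/
def BNSimple (A : Rep.{0} (ZMod p) Γ) : Prop :=
  Nontrivial A ∧ ∀ W : Submodule (ZMod p) A, BNStable A W → W = ⊥ ∨ W = ⊤

lemma BNIso.refl (A : Rep.{0} (ZMod p) Γ) : BNIso A A :=
  ⟨LinearEquiv.refl _ _, fun _ _ => rfl⟩

lemma BNIso.symm {A B : Rep.{0} (ZMod p) Γ} (h : BNIso A B) : BNIso B A := by
  obtain ⟨e, he⟩ := h
  refine ⟨e.symm, fun γ x => ?_⟩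
  apply e.injective
  rw [he, e.apply_symm_apply, e.apply_symm_apply]

lemma BNIso.trans {A B C : Rep.{0} (ZMod p) Γ} (h : BNIso A B) (h' : BNIso B C) : BNIso A C := by
  obtain ⟨e, he⟩ := h
  obtain ⟨e', he'⟩ := h'
  exact ⟨e.trans e', fun γ x => by
    show e' (e (A.ρ γ x)) = C.ρ γ (e' (e x))
    rw [he, he']⟩

/-- The representation on a stable submodule. -/
noncomputable def bnSubρ (A : Rep.{0} (ZMod p) Γ) (W : Submodule (ZMod p) A)
    (hW : BNStable A W) : Representation (ZMod p) Γ W where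
  toFun γ := (A.ρ γ).restrict (hW γ)
  map_one' := by
    refine LinearMap.ext fun w => Subtype.ext ?_
    show A.ρ 1 (w : A) = w
    rw [map_one]; rfl
  map_mul' γ γ' := by
    refine LinearMap.ext fun w => Subtype.ext ?_
    show A.ρ (γ * γ') (w : A) = A.ρ γ (A.ρ γ' (w : A))
    rw [map_mul]; rfl

/-- The sub-representation on a stable submodule. -/
noncomputable def bnSub (A : Rep.{0} (ZMod p) Γ) (W : Submodule (ZMod p) A)
    (hW : BNStable A W) : Rep.{0} (ZMod p) Γ := Rep.of (bnSubρ A W hW)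

/-- The representation on the quotient by a stable submodule. -/
noncomputable def bnQuotρ (A : Rep.{0} (ZMod p) Γ) (W : Submodule (ZMod p) A)
    (hW : BNStable A W) : Representation (ZMod p) Γ (A ⧸ W) where
  toFun γ := W.mapQ W (A.ρ γ) (fun w hw => hW γ w hw)
  map_one' := by
    refine LinearMap.ext fun x => ?_
    obtain ⟨a, rfl⟩ := Submodule.mkQ_surjective W x
    show Submodule.Quotient.mk (A.ρ 1 a) = Submodule.Quotient.mk a
    rw [map_one]; rfl
  map_mul' γ γ' := by
    refine LinearMap.ext fun x => ?_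
    obtain ⟨a, rfl⟩ := Submodule.mkQ_surjective W x
    show Submodule.Quotient.mk (A.ρ (γ * γ') a) = Submodule.Quotient.mk (A.ρ γ (A.ρ γ' a))
    rw [map_mul]; rfl

/-- The quotient representation by a stable submodule. -/
noncomputable def bnQuot (A : Rep.{0} (ZMod p) Γ) (W : Submodule (ZMod p) A)
    (hW : BNStable A W) : Rep.{0} (ZMod p) Γ := Rep.of (bnQuotρ A W hW)

lemma bnSub_ρ_apply (A : Rep.{0} (ZMod p) Γ) (W : Submodule (ZMod p) A) (hW : BNStable A W)
    (γ : Γ) (w : W) :
    ((bnSub A W hW).ρ γ : W →ₗ[ZMod p] W) w = ⟨A.ρ γ (w : A), hW γ w w.2⟩ := rfl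

lemma bnQuot_ρ_mk (A : Rep.{0} (ZMod p) Γ) (W : Submodule (ZMod p) A) (hW : BNStable A W)
    (γ : Γ) (a : A) :
    ((bnQuot A W hW).ρ γ : (A ⧸ W) →ₗ[ZMod p] (A ⧸ W)) (Submodule.Quotient.mk a) =
      Submodule.Quotient.mk (A.ρ γ a) :=
  rfl

/-! ### Additive functions -/

lemma bnSub_finite (A : Rep.{0} (ZMod p) Γ) (hA : Module.Finite (ZMod p) A)
    (W : Submodule (ZMod p) A) (hW : BNStable A W) : Module.Finite (ZMod p) (bnSub A W hW) := by
  haveI := hA
  show Module.Finite (ZMod p) W
  infer_instance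

lemma bnQuot_finite (A : Rep.{0} (ZMod p) Γ) (hA : Module.Finite (ZMod p) A)
    (W : Submodule (ZMod p) A) (hW : BNStable A W) : Module.Finite (ZMod p) (bnQuot A W hW) := by
  haveI := hA
  show Module.Finite (ZMod p) (A ⧸ W)
  infer_instance

/-- `d A = d W + d (A / W)`. -/
theorem IsAdditiveFn.bn_sub_quot {d : Rep.{0} (ZMod p) Γ → ℤ} (hd : IsAdditiveFn d)
    (A : Rep.{0} (ZMod p) Γ) (hA : Module.Finite (ZMod p) A) (W : Submodule (ZMod p) A)
    (hW : BNStable A W) : d A = d (bnSub A W hW) + d (bnQuot A W hW) := by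
  refine hd (bnSub A W hW) A (bnQuot A W hW) W.subtype W.mkQ hA (fun _ _ => rfl) (fun _ _ => rfl)
    W.injective_subtype (Submodule.mkQ_surjective W)
    ((Submodule.range_subtype W).trans (Submodule.ker_mkQ W).symm)

lemma bnStable_top (A : Rep.{0} (ZMod p) Γ) : BNStable A ⊤ := fun _ _ _ => Submodule.mem_top

lemma bnStable_bot (A : Rep.{0} (ZMod p) Γ) : BNStable A ⊥ := fun γ w hw => by
  rw [Submodule.mem_bot] at hw ⊢
  rw [hw, map_zero]

/-- `d` vanishes on the zero module `A / A`. -/
theorem IsAdditiveFn.bn_quot_top {d : Rep.{0} (ZMod p) Γ → ℤ} (hd : IsAdditiveFn d)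
    (A : Rep.{0} (ZMod p) Γ) : d (bnQuot A ⊤ (bnStable_top A)) = 0 := by
  set Z := bnQuot A ⊤ (bnStable_top A) with hZ
  haveI hsub : Subsingleton (A ⧸ (⊤ : Submodule (ZMod p) A)) :=
    Submodule.Quotient.subsingleton_iff.2 rfl
  haveI hsubZ : Subsingleton Z := hsub
  have hfin : Module.Finite (ZMod p) Z := by
    haveI : Finite Z := Finite.of_subsingleton
    exact Module.Finite.of_finite
  have h := hd Z Z Z 0 0 hfin (fun _ _ => Subsingleton.elim _ _) (fun _ _ => Subsingleton.elim _ _)
    (fun _ _ _ => Subsingleton.elim _ _) (fun b => ⟨b, Subsingleton.elim _ _⟩)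
    (by
      ext x
      simp only [LinearMap.mem_range, LinearMap.mem_ker]
      exact ⟨fun _ => Subsingleton.elim _ _, fun _ => ⟨x, Subsingleton.elim _ _⟩⟩)
  linarith

/-- `d` is invariant under isomorphisms. -/
theorem IsAdditiveFn.bn_iso {d : Rep.{0} (ZMod p) Γ → ℤ} (hd : IsAdditiveFn d)
    {A B : Rep.{0} (ZMod p) Γ} (hB : Module.Finite (ZMod p) B) (h : BNIso A B) : d A = d B := by
  obtain ⟨e, he⟩ := h
  have h1 := hd A B (bnQuot B ⊤ (bnStable_top B)) e.toLinearMap
    (Submodule.mkQ (⊤ : Submodule (ZMod p) B)) hB he (fun _ _ => rfl) e.injective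
    (Submodule.mkQ_surjective _)
    ((LinearMap.range_eq_top.2 e.surjective).trans (Submodule.ker_mkQ ⊤).symm)
  rw [hd.bn_quot_top, add_zero] at h1
  exact h1.symm

/-! ### Characteristic polynomials -/

/-- The characteristic polynomial is multiplicative on `0 → W → A → A / W → 0`. -/
theorem bnTools_charpoly_restrict_mul_mapQ {K V : Type} [Field K] [AddCommGroup V] [Module K V]
    [Module.Finite K V] (W : Submodule K V) (e : V →ₗ[K] V) (he : W ≤ W.comap e) :
    e.charpoly = (e.restrict he).charpoly * (W.mapQ W e he).charpoly := by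
  classical
  let m := Module.Free.ChooseBasisIndex K W
  let bW : Module.Basis m K W := Module.Free.chooseBasis K W
  let n := Module.Free.ChooseBasisIndex K (V ⧸ W)
  let bQ : Module.Basis n K (V ⧸ W) := Module.Free.chooseBasis K (V ⧸ W)
  let b := Module.Basis.sumQuot bW bQ
  let A : Matrix m m K := LinearMap.toMatrix bW bW (e.restrict he)
  let B : Matrix m n K := Matrix.of fun i l ↦
    ((Module.Basis.sumQuot bW bQ).repr (e ((Module.Basis.sumQuot bW bQ) (Sum.inr l)))) (Sum.inl i)
  let D : Matrix n n K := LinearMap.toMatrix bQ bQ (W.mapQ W e he)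
  suffices LinearMap.toMatrix b b e = Matrix.fromBlocks A B 0 D by
    rw [← LinearMap.charpoly_toMatrix e b, this, ← LinearMap.charpoly_toMatrix _ bW,
      ← LinearMap.charpoly_toMatrix _ bQ, Matrix.charpoly_fromBlocks_zero₂₁]
  ext u v
  cases u with
  | inl i =>
    cases v with
    | inl k =>
      simp only [b, Module.Basis.sumQuot_inl, Matrix.fromBlocks_apply₁₁, A,
        LinearMap.toMatrix_apply]
      apply Module.Basis.sumQuot_repr_inl_of_mem
    | inr l => simp [b, LinearMap.toMatrix_apply, Matrix.fromBlocks_apply₁₂, B]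
  | inr j =>
    cases v with
    | inl k =>
      suffices W.mkQ (e (bW k)) = 0 by simp [LinearMap.toMatrix_apply, b, this]
      rw [← LinearMap.mem_ker, Submodule.ker_mkQ]
      exact he (Submodule.coe_mem (bW k))
    | inr l =>
      simp only [LinearMap.toMatrix_apply, Module.Basis.sumQuot_repr_inr,
        Matrix.fromBlocks_apply₂₂, b, D]
      rw [← Module.Basis.sumQuot_inr bW bQ l, W.mapQ_apply]
      simp

/-- `charpoly(γ | A) = charpoly(γ | W) · charpoly(γ | A / W)`. -/
theorem repCharpoly_sub_quot (A : Rep.{0} (ZMod p) Γ) (hA : Module.Finite (ZMod p) A)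
    (W : Submodule (ZMod p) A) (hW : BNStable A W) (γ : Γ) :
    repCharpoly A γ = repCharpoly (bnSub A W hW) γ * repCharpoly (bnQuot A W hW) γ := by
  haveI := hA
  haveI := bnSub_finite A hA W hW
  haveI := bnQuot_finite A hA W hW
  rw [repCharpoly_eq, repCharpoly_eq, repCharpoly_eq]
  exact bnTools_charpoly_restrict_mul_mapQ W (A.ρ γ) (fun w hw => hW γ w hw)

/-- Isomorphic modules have the same characteristic polynomials. -/
theorem repCharpoly_iso {A B : Rep.{0} (ZMod p) Γ} (hA : Module.Finite (ZMod p) A)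
    (h : BNIso A B) (γ : Γ) : repCharpoly A γ = repCharpoly B γ := by
  obtain ⟨e, he⟩ := h
  haveI := hA
  haveI : Module.Finite (ZMod p) B := Module.Finite.equiv e
  rw [repCharpoly_eq, repCharpoly_eq]
  rw [← LinearEquiv.charpoly_conj e (A.ρ γ)]
  congr 1
  refine LinearMap.ext fun x => ?_
  show e (A.ρ γ (e.symm x)) = B.ρ γ x
  rw [he, e.apply_symm_apply]

end Fermat.Agent.S56.EC
end MergeWrap_S56_W2_EC_Brauer_BN_Tools

section MergeWrap_S56_W2_EC_Brauer_BN_Props -- from S56/W2/EC/Brauer/BN/Props.lean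

set_option autoImplicit false

namespace Fermat.Agent.S56.EC

open Fermat.Agent.F4 Polynomial

/-- **(c)** independence: for pairwise non-isomorphic simple finite modules `S j` and exponents
`NP j`, `NM j`, if `∏_j charpoly(γ | S j)^{NP j} = ∏_j charpoly(γ | S j)^{NM j}` for all
`p`-regular `γ`, then `NP = NM`. -/
def BNIndep (p : ℕ) [Fact p.Prime] (Γ : Type) [Group Γ] : Prop :=
  ∀ (n : ℕ) (S : Fin n → Rep.{0} (ZMod p) Γ), (∀ j, Module.Finite (ZMod p) (S j)) →
    (∀ j, BNSimple (S j)) → (∀ i j, i ≠ j → ¬ BNIso (S i) (S j)) →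
    ∀ NP NM : Fin n → ℕ,
      (∀ γ : Γ, IsPReg p γ →
        ∏ j, repCharpoly (S j) γ ^ NP j = ∏ j, repCharpoly (S j) γ ^ NM j) →
      NP = NM

/-- **(a)** a finite complete list of pairwise non-isomorphic simple finite modules. -/
def BNList (p : ℕ) [Fact p.Prime] (Γ : Type) [Group Γ] : Prop :=
  ∃ (n : ℕ) (S : Fin n → Rep.{0} (ZMod p) Γ), (∀ j, Module.Finite (ZMod p) (S j)) ∧
    (∀ j, BNSimple (S j)) ∧ (∀ i j, i ≠ j → ¬ BNIso (S i) (S j)) ∧
    ∀ A : Rep.{0} (ZMod p) Γ, Module.Finite (ZMod p) A → BNSimple A → ∃ j, BNIso A (S j)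

end Fermat.Agent.S56.EC
end MergeWrap_S56_W2_EC_Brauer_BN_Props

section MergeWrap_S56_W2_EC_Brauer_BN_Filt -- from S56/W2/EC/Brauer/BN/Filt.lean

set_option autoImplicit false
set_option linter.style.haveILetI false

namespace Fermat.Agent.S56.EC

open Fermat.Agent.F4 Polynomial Module

variable {p : ℕ} [Fact p.Prime] {Γ : Type} [Group Γ]

/-- Simplicity of a sub-representation, in terms of submodules of `W`. -/
lemma bnSimple_bnSub_iff (A : Rep.{0} (ZMod p) Γ) (W : Submodule (ZMod p) A)
    (hW : BNStable A W) :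
    BNSimple (bnSub A W hW) ↔ Nontrivial W ∧ ∀ V : Submodule (ZMod p) W,
      (∀ (γ : Γ), ∀ v ∈ V, (⟨A.ρ γ (v : A), hW γ v v.2⟩ : W) ∈ V) → V = ⊥ ∨ V = ⊤ :=
  Iff.rfl

/-- A nontrivial finite module has a simple stable submodule. -/
theorem bn_exists_simple_sub (A : Rep.{0} (ZMod p) Γ) (hA : Module.Finite (ZMod p) A)
    (hnt : Nontrivial A) :
    ∃ (W : Submodule (ZMod p) A) (hW : BNStable A W), BNSimple (bnSub A W hW) := by
  haveI := hA
  classical
  -- a nonzero stable submodule of minimal dimension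
  have hex : ∃ r : ℕ, ∃ W : Submodule (ZMod p) A, BNStable A W ∧ W ≠ ⊥ ∧ finrank (ZMod p) W = r :=
    ⟨_, ⊤, bnStable_top A, top_ne_bot, rfl⟩
  obtain ⟨W, hW, hWne, hWr⟩ := Nat.find_spec hex
  have hmin : ∀ W' : Submodule (ZMod p) A, BNStable A W' → W' ≠ ⊥ →
      finrank (ZMod p) W ≤ finrank (ZMod p) W' := by
    intro W' hW' hW'ne
    rw [hWr]
    exact Nat.find_min' hex ⟨W', hW', hW'ne, rfl⟩
  refine ⟨W, hW, (bnSimple_bnSub_iff A W hW).2 ⟨Submodule.nontrivial_iff_ne_bot.2 hWne, ?_⟩⟩
  intro V hV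
  by_cases hV0 : V = ⊥
  · exact Or.inl hV0
  · right
    have hst : BNStable A (V.map W.subtype) := by
      rintro γ _ ⟨v, hv, rfl⟩
      exact ⟨⟨A.ρ γ (v : A), hW γ v v.2⟩, hV γ v hv, rfl⟩
    have hne : V.map W.subtype ≠ ⊥ := by
      intro h
      apply hV0
      rw [Submodule.eq_bot_iff] at h ⊢
      intro v hv
      exact Subtype.ext (h _ ⟨v, hv, rfl⟩)
    have h1 := hmin _ hst hne
    have h2 : finrank (ZMod p) (V.map W.subtype) = finrank (ZMod p) V :=
      (Submodule.equivMapOfInjective W.subtype W.injective_subtype V).symm.finrank_eq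
    rw [h2] at h1
    exact Submodule.eq_top_of_finrank_eq (le_antisymm (Submodule.finrank_le V) h1)

/-- `d` vanishes on subsingleton modules. -/
theorem IsAdditiveFn.bn_subsingleton {d : Rep.{0} (ZMod p) Γ → ℤ} (hd : IsAdditiveFn d)
    (A : Rep.{0} (ZMod p) Γ) (hA : Subsingleton A) : d A = 0 := by
  haveI := hA
  haveI hsub : Subsingleton (A ⧸ (⊤ : Submodule (ZMod p) A)) :=
    Submodule.Quotient.subsingleton_iff.2 rfl
  have hfin : Module.Finite (ZMod p) (bnQuot A ⊤ (bnStable_top A)) := by
    haveI : Finite (A ⧸ (⊤ : Submodule (ZMod p) A)) := Finite.of_subsingleton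
    exact (Module.Finite.of_finite : Module.Finite (ZMod p) (A ⧸ (⊤ : Submodule (ZMod p) A)))
  have hiso : BNIso A (bnQuot A ⊤ (bnStable_top A)) := by
    refine ⟨LinearEquiv.ofBijective (Submodule.mkQ ⊤)
      ⟨fun _ _ _ => Subsingleton.elim _ _, Submodule.mkQ_surjective _⟩, fun _ _ => rfl⟩
  rw [hd.bn_iso hfin hiso, hd.bn_quot_top]

/-- The characteristic polynomial on a subsingleton module is `1`. -/
theorem repCharpoly_subsingleton (A : Rep.{0} (ZMod p) Γ) (hA : Subsingleton A) (γ : Γ) :
    repCharpoly A γ = 1 := by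
  haveI := hA
  haveI : Module.Finite (ZMod p) A := by
    haveI : Finite A := Finite.of_subsingleton
    exact Module.Finite.of_finite
  rw [repCharpoly_eq]
  have hmon := LinearMap.charpoly_monic (A.ρ γ)
  have hdeg := LinearMap.charpoly_natDegree (A.ρ γ)
  rw [finrank_zero_of_subsingleton] at hdeg
  exact (Polynomial.Monic.natDegree_eq_zero hmon).1 hdeg

/-- **(b)** filtration: multiplicities with respect to a complete list of simple modules. -/
theorem bn_filtration (n : ℕ) (S : Fin n → Rep.{0} (ZMod p) Γ)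
    (hSfin : ∀ j, Module.Finite (ZMod p) (S j))
    (hcompl : ∀ A : Rep.{0} (ZMod p) Γ, Module.Finite (ZMod p) A → BNSimple A →
      ∃ j, BNIso A (S j))
    (X : Rep.{0} (ZMod p) Γ) (hX : Module.Finite (ZMod p) X) :
    ∃ m : Fin n → ℕ,
      (∀ d : Rep.{0} (ZMod p) Γ → ℤ, IsAdditiveFn d → d X = ∑ j, (m j : ℤ) * d (S j)) ∧
      ∀ γ : Γ, repCharpoly X γ = ∏ j, repCharpoly (S j) γ ^ m j := by
  classical
  -- strong induction on the dimension
  suffices H : ∀ (r : ℕ) (X : Rep.{0} (ZMod p) Γ) (hX : Module.Finite (ZMod p) X),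
      finrank (ZMod p) X = r → ∃ m : Fin n → ℕ,
      (∀ d : Rep.{0} (ZMod p) Γ → ℤ, IsAdditiveFn d → d X = ∑ j, (m j : ℤ) * d (S j)) ∧
      ∀ γ : Γ, repCharpoly X γ = ∏ j, repCharpoly (S j) γ ^ m j from H _ X hX rfl
  intro r
  induction r using Nat.strong_induction_on with
  | _ r ih =>
    intro X hX hr
    haveI := hX
    by_cases hsub : Subsingleton X
    · refine ⟨fun _ => 0, fun d hd => ?_, fun γ => ?_⟩
      · rw [hd.bn_subsingleton X hsub]
        simp
      · rw [repCharpoly_subsingleton X hsub]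
        simp
    · have hnt : Nontrivial X := not_subsingleton_iff_nontrivial.1 hsub
      obtain ⟨W, hW, hsimple⟩ := bn_exists_simple_sub X hX hnt
      have hWfin := bnSub_finite X hX W hW
      have hQfin := bnQuot_finite X hX W hW
      obtain ⟨j₀, hj₀⟩ := hcompl _ hWfin hsimple
      have hWpos : 0 < finrank (ZMod p) W := by
        haveI : Nontrivial W := hsimple.1
        exact finrank_pos
      have hlt : finrank (ZMod p) (bnQuot X W hW) < r := by
        have h1 : finrank (ZMod p) (X ⧸ W) + finrank (ZMod p) W = finrank (ZMod p) X :=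
          Submodule.finrank_quotient_add_finrank W
        have h2 : finrank (ZMod p) (bnQuot X W hW) = finrank (ZMod p) (X ⧸ W) := rfl
        omega
      obtain ⟨m', hm'd, hm'c⟩ := ih _ hlt (bnQuot X W hW) hQfin rfl
      refine ⟨fun j => m' j + (if j = j₀ then 1 else 0), fun d hd => ?_, fun γ => ?_⟩
      · rw [hd.bn_sub_quot X hX W hW, hm'd d hd, hd.bn_iso (hSfin j₀) hj₀]
        simp only [Nat.cast_add, add_mul, Finset.sum_add_distrib]
        rw [add_comm]
        congr 1
        rw [Finset.sum_eq_single j₀]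
        · simp
        · intro j _ hj
          simp [hj]
        · intro h
          exact absurd (Finset.mem_univ _) h
      · rw [repCharpoly_sub_quot X hX W hW γ, hm'c γ, repCharpoly_iso hWfin hj₀ γ]
        simp only [pow_add, Finset.prod_mul_distrib]
        rw [mul_comm]
        congr 1
        rw [Finset.prod_eq_single j₀]
        · simp
        · intro j _ hj
          simp [hj]
        · intro h
          exact absurd (Finset.mem_univ _) h

end Fermat.Agent.S56.EC
end MergeWrap_S56_W2_EC_Brauer_BN_Filt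

section MergeWrap_S56_W2_EC_Brauer_BN_Wire -- from S56/W2/EC/Brauer/BN/Wire.lean

set_option autoImplicit false
set_option linter.style.haveILetI false

namespace Fermat.Agent.S56.EC

open Fermat.Agent.F4 Polynomial Module

variable {p : ℕ} [Fact p.Prime] {Γ : Type} [Group Γ]

/-- **(d)** Brauer–Nesbitt from (a), (b), (c). -/
theorem brauerNesbitt_of (hList : BNList p Γ) (hIndep : BNIndep p Γ) : BrauerNesbitt p Γ := by
  classical
  intro ι _ X hX nP nM hpoly d hd
  obtain ⟨n, S, hSfin, hSsimple, hSnoniso, hScompl⟩ := hList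
  choose m hmd hmc using fun i => bn_filtration n S hSfin hScompl (X i) (hX i)
  -- the exponents
  let NP : Fin n → ℕ := fun j => ∑ i, nP i * m i j
  let NM : Fin n → ℕ := fun j => ∑ i, nM i * m i j
  have hprod : ∀ (w : ι → ℕ) (γ : Γ),
      ∏ i, repCharpoly (X i) γ ^ w i = ∏ j, repCharpoly (S j) γ ^ (∑ i, w i * m i j) := by
    intro w γ
    simp only [hmc, ← Finset.prod_pow, ← pow_mul]
    rw [Finset.prod_comm]
    refine Finset.prod_congr rfl fun j _ => ?_
    rw [Finset.prod_pow_eq_pow_sum]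
    congr 1
    exact Finset.sum_congr rfl fun i _ => mul_comm _ _
  have hN : NP = NM := by
    refine hIndep n S hSfin hSsimple hSnoniso NP NM fun γ hγ => ?_
    rw [← hprod nP γ, ← hprod nM γ]
    exact hpoly γ hγ
  have hsum : ∀ w : ι → ℕ, ∑ i, (w i : ℤ) * d (X i) =
      ∑ j, ((∑ i, w i * m i j : ℕ) : ℤ) * d (S j) := by
    intro w
    simp only [hmd _ d hd, Finset.mul_sum, Nat.cast_sum, Nat.cast_mul, Finset.sum_mul]
    rw [Finset.sum_comm]
    refine Finset.sum_congr rfl fun j _ => Finset.sum_congr rfl fun i _ => ?_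
    ring
  rw [hsum nP, hsum nM]
  refine Finset.sum_congr rfl fun j _ => ?_
  have := congrFun hN j
  show ((NP j : ℕ) : ℤ) * _ = ((NM j : ℕ) : ℤ) * _
  rw [this]

end Fermat.Agent.S56.EC
end MergeWrap_S56_W2_EC_Brauer_BN_Wire

section MergeWrap_S56_W2_EC_Brauer_BN_List -- from S56/W2/EC/Brauer/BN/List.lean

set_option autoImplicit false
set_option linter.style.haveILetI false

namespace Fermat.Agent.S56.EC

open Fermat.Agent.F4 Polynomial Module

variable {p : ℕ} [Fact p.Prime] {Γ : Type} [Group Γ]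

variable (p Γ) in
/-- The regular representation `𝔽_p[Γ]`. -/
noncomputable abbrev bnReg : Rep.{0} (ZMod p) Γ := Rep.leftRegular (ZMod p) Γ

/-- The orbit map `𝔽_p[Γ] → A`, `γ ↦ γ a`. -/
noncomputable def bnOrbitMap (A : Rep.{0} (ZMod p) Γ) (a : A) : (bnReg p Γ) →ₗ[ZMod p] A :=
  (Rep.leftRegularHom A a).hom.toLinearMap

lemma bnOrbitMap_comm (A : Rep.{0} (ZMod p) Γ) (a : A) (γ : Γ) (f : bnReg p Γ) :
    bnOrbitMap A a ((bnReg p Γ).ρ γ f) = A.ρ γ (bnOrbitMap A a f) :=
  Rep.hom_comm_apply (Rep.leftRegularHom A a) γ f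

lemma bnOrbitMap_one (A : Rep.{0} (ZMod p) Γ) (a : A) :
    bnOrbitMap A a (MonoidAlgebra.single 1 1) = a := by
  have h := Rep.leftRegularHom_hom_single (A := A) (1 : Γ) a (1 : ZMod p)
  rw [one_smul, map_one] at h
  exact h

/-- Simplicity is invariant under isomorphism. -/
theorem BNSimple.of_iso {A B : Rep.{0} (ZMod p) Γ} (h : BNIso A B) (hA : BNSimple A) :
    BNSimple B := by
  obtain ⟨e, he⟩ := h
  obtain ⟨hnt, hs⟩ := hA
  refine ⟨haveI := hnt; e.injective.nontrivial, fun W hW => ?_⟩
  have hst : BNStable A (W.comap e.toLinearMap) := by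
    intro γ w hw
    rw [Submodule.mem_comap] at hw ⊢
    show e (A.ρ γ w) ∈ W
    rw [he]
    exact hW γ _ hw
  rcases hs _ hst with h | h
  · left
    rw [eq_bot_iff]
    intro w hw
    have h1 : e.symm w ∈ W.comap e.toLinearMap := by
      rw [Submodule.mem_comap]
      show e (e.symm w) ∈ W
      rwa [e.apply_symm_apply]
    rw [h, Submodule.mem_bot] at h1
    rw [Submodule.mem_bot]
    have := congrArg e h1
    rwa [e.apply_symm_apply, map_zero] at this
  · right
    rw [eq_top_iff]
    intro w _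
    have h1 : e.symm w ∈ W.comap e.toLinearMap := by rw [h]; exact Submodule.mem_top
    rw [Submodule.mem_comap] at h1
    have h2 : e (e.symm w) ∈ W := h1
    rwa [e.apply_symm_apply] at h2

/-- A simple module is isomorphic to a quotient of the regular representation. -/
theorem bn_simple_iso_quot (A : Rep.{0} (ZMod p) Γ) (hA : BNSimple A) :
    ∃ (K : Submodule (ZMod p) (bnReg p Γ)) (hK : BNStable (bnReg p Γ) K),
      BNIso (bnQuot (bnReg p Γ) K hK) A := by
  obtain ⟨hnt, hsimple⟩ := hA
  obtain ⟨a, ha⟩ := exists_ne (0 : A)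
  have hKst : BNStable (bnReg p Γ) (LinearMap.ker (bnOrbitMap A a)) := by
    intro γ f hf
    rw [LinearMap.mem_ker] at hf ⊢
    rw [bnOrbitMap_comm, hf, map_zero]
  have hrange_st : BNStable A (LinearMap.range (bnOrbitMap A a)) := by
    rintro γ _ ⟨f, rfl⟩
    exact ⟨(bnReg p Γ).ρ γ f, bnOrbitMap_comm A a γ f⟩
  have hrange : LinearMap.range (bnOrbitMap A a) = ⊤ := by
    rcases hsimple _ hrange_st with h | h
    · exfalso
      apply ha
      have hmem : a ∈ LinearMap.range (bnOrbitMap A a) := ⟨_, bnOrbitMap_one A a⟩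
      rw [h, Submodule.mem_bot] at hmem
      exact hmem
    · exact h
  refine ⟨LinearMap.ker (bnOrbitMap A a), hKst, ?_⟩
  refine ⟨(bnOrbitMap A a).quotKerEquivOfSurjective (LinearMap.range_eq_top.1 hrange),
    fun γ x => ?_⟩
  obtain ⟨f, rfl⟩ := Submodule.mkQ_surjective _ x
  show bnOrbitMap A a ((bnReg p Γ).ρ γ f) = A.ρ γ (bnOrbitMap A a f)
  exact bnOrbitMap_comm A a γ f

/-- The setoid of isomorphism on a family of representations. -/
def bnIsoSetoid {T : Type} (F : T → Rep.{0} (ZMod p) Γ) : Setoid T where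
  r s t := BNIso (F s) (F t)
  iseqv := ⟨fun _ => BNIso.refl _, fun h => h.symm, fun h h' => h.trans h'⟩

/-- **(a)** a finite complete list of pairwise non-isomorphic simple modules. -/
theorem bnList (p : ℕ) [Fact p.Prime] (Γ : Type) [Group Γ] [Finite Γ] : BNList p Γ := by
  classical
  haveI : Fintype Γ := Fintype.ofFinite Γ
  have hRegfin : Module.Finite (ZMod p) (bnReg p Γ) :=
    Module.Finite.equiv
      (MonoidAlgebra.coeffLinearEquiv (ZMod p) : MonoidAlgebra (ZMod p) Γ ≃ₗ[ZMod p] _).symm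
  haveI hfinReg : Finite (bnReg p Γ) := by
    haveI := hRegfin
    exact Module.finite_of_finite (ZMod p)
  haveI : Finite (Submodule (ZMod p) (bnReg p Γ)) :=
    Finite.of_injective (fun K : Submodule (ZMod p) (bnReg p Γ) => (K : Set (bnReg p Γ)))
      SetLike.coe_injective
  -- the stable submodules with simple quotient
  let T : Type := {K : Submodule (ZMod p) (bnReg p Γ) //
    ∃ hK : BNStable (bnReg p Γ) K, BNSimple (bnQuot (bnReg p Γ) K hK)}
  let F : T → Rep.{0} (ZMod p) Γ := fun K => bnQuot (bnReg p Γ) K.1 K.2.choose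
  let Q : Type := Quotient (bnIsoSetoid F)
  haveI : Finite T := Subtype.finite
  haveI : Finite Q := Quotient.finite _
  let e : Q ≃ Fin (Nat.card Q) := Finite.equivFin Q
  let S : Fin (Nat.card Q) → Rep.{0} (ZMod p) Γ := fun j => F (Quotient.out (e.symm j))
  refine ⟨Nat.card Q, S, fun j => bnQuot_finite _ hRegfin _ _,
    fun j => (Quotient.out (e.symm j)).2.choose_spec, ?_, ?_⟩
  · intro i j hij hiso
    apply hij
    have h1 : (⟦Quotient.out (e.symm i)⟧ : Q) = ⟦Quotient.out (e.symm j)⟧ :=
      Quotient.sound (s := bnIsoSetoid F) hiso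
    rw [Quotient.out_eq, Quotient.out_eq] at h1
    exact e.symm.injective h1
  · intro A hAfin hAsimple
    obtain ⟨K, hK, hiso⟩ := bn_simple_iso_quot A hAsimple
    have hKsimple : BNSimple (bnQuot (bnReg p Γ) K hK) := BNSimple.of_iso hiso.symm hAsimple
    let t : T := ⟨K, hK, hKsimple⟩
    refine ⟨e ⟦t⟧, ?_⟩
    have h2 : (⟦Quotient.out (e.symm (e ⟦t⟧))⟧ : Q) = ⟦t⟧ := by
      rw [Quotient.out_eq, e.symm_apply_apply]
    have h3 : BNIso (F (Quotient.out (e.symm (e ⟦t⟧)))) (F t) :=
      Quotient.exact (s := bnIsoSetoid F) h2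
    exact hiso.symm.trans h3.symm

end Fermat.Agent.S56.EC
end MergeWrap_S56_W2_EC_Brauer_BN_List

section MergeWrap_S56_W2_EC_Brauer_BN_LinAlg -- from S56/W2/EC/Brauer/BN/LinAlg.lean

set_option autoImplicit false

namespace Fermat.Agent.S56.EC

open Polynomial Module

section Charpoly

variable {K V : Type*} [Field K] [AddCommGroup V] [Module K V] [Module.Finite K V]

/-- The characteristic polynomial of an endomorphism is the product of the characteristic
polynomials on a stable subspace and on the quotient. -/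
theorem bn_charpoly_eq_mul (W : Submodule K V) (e : V →ₗ[K] V) (he : W ≤ W.comap e) :
    e.charpoly = (e.restrict he).charpoly * (W.mapQ W e he).charpoly := by
  classical
  let m := Module.Free.ChooseBasisIndex K W
  let bW : Basis m K W := Module.Free.chooseBasis K W
  let n := Module.Free.ChooseBasisIndex K (V ⧸ W)
  let bQ : Basis n K (V ⧸ W) := Module.Free.chooseBasis K (V ⧸ W)
  let b := Basis.sumQuot bW bQ
  let A : Matrix m m K := LinearMap.toMatrix bW bW (e.restrict he)
  let B : Matrix m n K := Matrix.of fun i l ↦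
    ((Basis.sumQuot bW bQ).repr (e ((Basis.sumQuot bW bQ) (Sum.inr l)))) (Sum.inl i)
  let D : Matrix n n K := LinearMap.toMatrix bQ bQ (W.mapQ W e he)
  suffices LinearMap.toMatrix b b e = Matrix.fromBlocks A B 0 D by
    rw [← LinearMap.charpoly_toMatrix e b, this, ← LinearMap.charpoly_toMatrix (e.restrict he) bW,
      ← LinearMap.charpoly_toMatrix (W.mapQ W e he) bQ, Matrix.charpoly_fromBlocks_zero₂₁]
  ext u v
  cases u with
  | inl i =>
    cases v with
    | inl k =>
      simp only [b, Basis.sumQuot_inl, Matrix.fromBlocks_apply₁₁, A, LinearMap.toMatrix_apply]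
      apply Basis.sumQuot_repr_inl_of_mem
    | inr l => simp [b, LinearMap.toMatrix_apply, Matrix.fromBlocks_apply₁₂, B]
  | inr j =>
    cases v with
    | inl k =>
      suffices W.mkQ (e (bW k)) = 0 by simp [LinearMap.toMatrix_apply, b, this]
      rw [← LinearMap.mem_ker, Submodule.ker_mkQ]
      exact he (Submodule.coe_mem (bW k))
    | inr l =>
      simp only [LinearMap.toMatrix_apply, Basis.sumQuot_repr_inr,
        Matrix.fromBlocks_apply₂₂, b, D]
      rw [← Basis.sumQuot_inr bW bQ l, W.mapQ_apply]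
      simp

/-- The trace is minus the second coefficient of the characteristic polynomial. -/
theorem bn_trace_eq_neg_nextCoeff (e : V →ₗ[K] V) :
    LinearMap.trace K V e = - e.charpoly.nextCoeff := by
  classical
  let b := Module.Free.chooseBasis K V
  rw [LinearMap.trace_eq_matrix_trace K b, ← LinearMap.charpoly_toMatrix e b,
    Matrix.trace_eq_neg_charpoly_nextCoeff]

/-- Conjugate endomorphisms have the same characteristic polynomial. -/
theorem bn_charpoly_congr {V' : Type*} [AddCommGroup V'] [Module K V'] [Module.Finite K V']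
    (ε : V ≃ₗ[K] V') (e : V →ₗ[K] V) (e' : V' →ₗ[K] V') (h : ∀ x, ε (e x) = e' (ε x)) :
    e.charpoly = e'.charpoly := by
  have : e' = ε.conj e := by
    refine LinearMap.ext fun y => ?_
    rw [LinearEquiv.conj_apply_apply, h, LinearEquiv.apply_symm_apply]
  rw [this, LinearEquiv.charpoly_conj]

end Charpoly

section Unip

variable {K V : Type*} [Field K] [AddCommGroup V] [Module K V] [Module.Finite K V]

/-- In characteristic `p`: `tr (s ∘ u) = tr s` when `u` commutes with `s` and `u ^ (p ^ n) = 1`. -/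
theorem bn_trace_mul_unip (p : ℕ) [Fact p.Prime] [CharP K p] (s u : Module.End K V)
    (hc : Commute s u) (n : ℕ) (hu : u ^ (p ^ n) = 1) :
    LinearMap.trace K V (s * u) = LinearMap.trace K V s := by
  rcases subsingleton_or_nontrivial V with hV | hV
  · have : Subsingleton (Module.End K V) :=
      ⟨fun a b => LinearMap.ext fun x => Subsingleton.elim _ _⟩
    rw [Subsingleton.elim (s * u) s]
  have : CharP (Module.End K V) p :=
    charP_of_injective_algebraMap (FaithfulSMul.algebraMap_injective K (Module.End K V)) p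
  have hnil : IsNilpotent (u - 1) := by
    refine ⟨p ^ n, ?_⟩
    rw [sub_pow_char_pow_of_commute p n (Commute.one_right u), hu, one_pow, sub_self]
  have hnil2 : IsNilpotent (s * (u - 1)) :=
    Commute.isNilpotent_mul_left (hc.sub_right (Commute.one_right s)) hnil
  have htr : LinearMap.trace K V (s * (u - 1)) = 0 :=
    (LinearMap.isNilpotent_trace_of_isNilpotent hnil2).eq_zero
  have : s * u = s + s * (u - 1) := by rw [mul_sub, mul_one]; abel
  rw [this, map_add, htr, add_zero]

end Unip

section Frob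

/-- `f ^ p = g ^ p → f = g` for polynomials over `𝔽_p`. -/
theorem bn_pow_char_inj (p : ℕ) [Fact p.Prime] (f g : (ZMod p)[X]) (h : f ^ p = g ^ p) : f = g :=
  frobenius_inj (ZMod p)[X] p h

end Frob

end Fermat.Agent.S56.EC
end MergeWrap_S56_W2_EC_Brauer_BN_LinAlg

section MergeWrap_S56_W2_EC_Brauer_BN_Density -- from S56/W2/EC/Brauer/BN/Density.lean

set_option autoImplicit false
set_option linter.style.haveILetI false

namespace Fermat.Agent.S56.EC

open Module

section Density

variable {R : Type*} [Ring R] {κ : Type*} [Finite κ] (M : κ → Type*)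
  [∀ i, AddCommGroup (M i)] [∀ i, Module R (M i)] [∀ i, IsSimpleModule R (M i)]
  [∀ i, Finite (M i)]

/-- **Density** for a finite family of simple modules without non-zero homomorphisms between
different members: every additive endomorphism `φ` of `M j₀` commuting with `End_R (M j₀)` is
induced by an element of `R` which kills the other members. -/
theorem bn_density (hne : ∀ i j, i ≠ j → ∀ f : M i →ₗ[R] M j, f = 0)
    (j₀ : κ) (φ : M j₀ →+ M j₀)
    (hφ : ∀ (e : Module.End R (M j₀)) (y : M j₀), φ (e y) = e (φ y)) :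
    ∃ r : R, (∀ y : M j₀, r • y = φ y) ∧ ∀ i, i ≠ j₀ → ∀ y : M i, r • y = 0 := by
  classical
  haveI : Fintype κ := Fintype.ofFinite κ
  -- the diagonal component of an endomorphism of the product
  let comp : Module.End R (∀ i, M i) → Module.End R (M j₀) := fun e =>
    (LinearMap.proj j₀) ∘ₗ e ∘ₗ (LinearMap.single R M j₀)
  have h1 : ∀ (e : Module.End R (∀ i, M i)) (m : ∀ i, M i), (e m) j₀ = comp e (m j₀) := by
    intro e m
    have : (LinearMap.proj j₀) ∘ₗ e = (comp e) ∘ₗ (LinearMap.proj j₀ : (∀ i, M i) →ₗ[R] M j₀) := by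
      refine LinearMap.pi_ext fun i y => ?_
      by_cases hi : i = j₀
      · subst hi
        simp [comp]
      · have h0 := hne i j₀ hi ((LinearMap.proj j₀) ∘ₗ e ∘ₗ (LinearMap.single R M i))
        have h0' := LinearMap.congr_fun h0 y
        simp only [LinearMap.coe_comp, Function.comp_apply, LinearMap.coe_proj,
          Function.eval, LinearMap.zero_apply, LinearMap.coe_single] at h0' ⊢
        rw [h0', Pi.single_eq_of_ne (Ne.symm hi), map_zero]
    exact LinearMap.congr_fun this m
  have h2 : ∀ (e : Module.End R (∀ i, M i)) (y : M j₀),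
      e (Pi.single j₀ y) = Pi.single j₀ (comp e y) := by
    intro e y
    funext i
    by_cases hi : i = j₀
    · subst hi
      simp [comp]
    · have h0 := hne j₀ i (Ne.symm hi) ((LinearMap.proj i) ∘ₗ e ∘ₗ (LinearMap.single R M j₀))
      have h0' := LinearMap.congr_fun h0 y
      simp only [LinearMap.coe_comp, Function.comp_apply, LinearMap.coe_proj,
        Function.eval, LinearMap.zero_apply, LinearMap.coe_single] at h0'
      rw [h0', Pi.single_eq_of_ne hi]
  let F : Module.End (Module.End R (∀ i, M i)) (∀ i, M i) :=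
    { toFun := fun m => Pi.single j₀ (φ (m j₀))
      map_add' := fun m m' => by
        rw [Pi.add_apply, map_add, Pi.single_add]
      map_smul' := fun e m => by
        simp only [RingHom.id_apply, Module.End.smul_def]
        rw [h1, hφ, h2] }
  haveI : Finite (∀ i, M i) := inferInstance
  haveI : Fintype (∀ i, M i) := Fintype.ofFinite _
  obtain ⟨r, hr⟩ := jacobson_density (R := R) F Finset.univ
  refine ⟨r, fun y => ?_, fun i hi y => ?_⟩
  · have := congrFun (hr (Pi.single j₀ y) (Finset.mem_univ _)) j₀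
    simp only [F, LinearMap.coe_mk, AddHom.coe_mk, Pi.single_eq_same, Pi.smul_apply] at this
    exact this.symm
  · have := congrFun (hr (Pi.single i y) (Finset.mem_univ _)) i
    simp only [F, LinearMap.coe_mk, AddHom.coe_mk, Pi.single_eq_same, Pi.smul_apply,
      Pi.single_eq_of_ne (Ne.symm hi), map_zero, Pi.single_zero, Pi.zero_apply] at this
    exact this.symm

end Density

section TraceOne

variable (k : Type*) [Field k] [Finite k] {R : Type*} [Ring R] [Algebra k R]
  (M : Type*) [AddCommGroup M] [Module k M] [Module R M] [IsScalarTower k R M]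
  [IsSimpleModule R M] [Finite M]

/-- On a finite simple module over an algebra over a finite field there is a `k`-linear
endomorphism commuting with all `R`-endomorphisms whose trace is `1`. -/
theorem bn_exists_commutant_trace_one :
    ∃ φ : M →ₗ[k] M, (∀ (e : Module.End R M) (m : M), φ (e m) = e (φ m)) ∧
      LinearMap.trace k M φ = 1 := by
  classical
  haveI : Finite (Module.End R M) :=
    Finite.of_injective (fun e : Module.End R M => (e : M → M)) DFunLike.coe_injective
  letI : Field (Module.End R M) := littleWedderburn _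
  haveI : Nontrivial M := IsSimpleModule.nontrivial R M
  haveI : Module.Finite k (Module.End R M) := Module.Finite.of_finite
  haveI : Module.Finite k M := Module.Finite.of_finite
  obtain ⟨a, ha⟩ := Algebra.trace_surjective k (Module.End R M) 1
  obtain ⟨v, hv⟩ := exists_ne (0 : M)
  obtain ⟨ℓ, hℓ⟩ := Module.Projective.exists_dual_eq_one (Module.End R M) hv
  have hsm : ∀ (c : k) (m : M), ℓ (c • m) = c • ℓ m := by
    intro c m
    have h1 : c • m = (algebraMap k (Module.End R M) c) • m := by
      rw [Module.End.smul_def, Algebra.algebraMap_eq_smul_one, LinearMap.smul_apply,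
        Module.End.one_apply]
    rw [h1, map_smul, smul_eq_mul, Algebra.smul_def]
  let ℓk : M →ₗ[k] (Module.End R M) :=
    { toFun := fun m => ℓ m
      map_add' := fun m m' => map_add ℓ m m'
      map_smul' := fun c m => hsm c m }
  let ι : (Module.End R M) →ₗ[k] M :=
    { toFun := fun d => d v
      map_add' := fun d d' => LinearMap.add_apply d d' v
      map_smul' := fun c d => LinearMap.smul_apply c d v }
  let g : M →ₗ[k] (Module.End R M) := (Algebra.lmul k (Module.End R M) a) ∘ₗ ℓk
  refine ⟨ι ∘ₗ g, fun e m => ?_, ?_⟩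
  · show (a * ℓ (e m)) v = e ((a * ℓ m) v)
    have : ℓ (e m) = e * ℓ m := by
      have := map_smul ℓ e m
      rwa [Module.End.smul_def, smul_eq_mul] at this
    rw [this, ← mul_assoc, mul_comm a e, mul_assoc, Module.End.mul_apply]
  · rw [LinearMap.trace_comp_comm']
    have : g ∘ₗ ι = Algebra.lmul k (Module.End R M) a := by
      refine LinearMap.ext fun d => ?_
      show a * ℓ (d v) = a * d
      have : ℓ (d v) = d * ℓ v := by
        have := map_smul ℓ d v
        rwa [Module.End.smul_def, smul_eq_mul] at this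
      rw [this, hℓ, mul_one]
    rw [this, ← Algebra.trace_apply, ha]

end TraceOne

end Fermat.Agent.S56.EC
end MergeWrap_S56_W2_EC_Brauer_BN_Density

section MergeWrap_S56_W2_EC_Brauer_BN_TraceElt -- from S56/W2/EC/Brauer/BN/TraceElt.lean

set_option autoImplicit false
set_option linter.style.haveILetI false

namespace Fermat.Agent.S56.EC

open Module

variable {p : ℕ} [Fact p.Prime] {Γ : Type} [Group Γ]

section

variable {κ : Type} [Finite κ] (S : κ → Rep.{0} (ZMod p) Γ)
  (hfin : ∀ j, Module.Finite (ZMod p) (S j))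
  (hs : ∀ j, IsSimpleModule (MonoidAlgebra (ZMod p) Γ) (S j).ρ.asModule)
  (hne : ∀ i j, i ≠ j → ∀ f : (S i) →ₗ[ZMod p] (S j),
    (∀ (g : Γ) (x : S i), f ((S i).ρ g x) = (S j).ρ g (f x)) → f = 0)

include hfin hs hne in
/-- An element of the group algebra with trace `1` on `S j₀` which kills the other members. -/
theorem bn_trace_element (j₀ : κ) :
    ∃ x : MonoidAlgebra (ZMod p) Γ,
      LinearMap.trace (ZMod p) (S j₀) ((S j₀).ρ.asAlgebraHom x) = 1 ∧
      ∀ i, i ≠ j₀ → (S i).ρ.asAlgebraHom x = 0 := by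
  classical
  haveI := hs
  haveI : ∀ j, Finite (S j).ρ.asModule := fun j =>
    haveI := hfin j
    (Module.finite_of_finite (ZMod p) : Finite (S j))
  obtain ⟨φ, hφc, hφt⟩ := bn_exists_commutant_trace_one (ZMod p)
    (R := MonoidAlgebra (ZMod p) Γ) (S j₀).ρ.asModule
  have hne' : ∀ i j, i ≠ j →
      ∀ f : (S i).ρ.asModule →ₗ[MonoidAlgebra (ZMod p) Γ] (S j).ρ.asModule, f = 0 := by
    intro i j hij f
    have h0 := hne i j hij
      ((S j).ρ.asModuleEquiv.toLinearMap ∘ₗ (f.restrictScalars (ZMod p)) ∘ₗ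
        (S i).ρ.asModuleEquiv.symm.toLinearMap)
      (fun g x => by
        simp only [LinearMap.coe_comp, LinearEquiv.coe_coe, Function.comp_apply,
          LinearMap.coe_restrictScalars]
        rw [Representation.asModuleEquiv_symm_map_rho, map_smul,
          Representation.asModuleEquiv_map_smul, Representation.asAlgebraHom_of])
    refine LinearMap.ext fun x => ?_
    have h1 := LinearMap.congr_fun h0 ((S i).ρ.asModuleEquiv x)
    simp only [LinearMap.coe_comp, LinearEquiv.coe_coe, Function.comp_apply,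
      LinearMap.coe_restrictScalars, LinearEquiv.symm_apply_apply, LinearMap.zero_apply] at h1
    exact (S j).ρ.asModuleEquiv.injective (by rw [h1, LinearMap.zero_apply, map_zero])
  obtain ⟨r, hr1, hr2⟩ := bn_density (R := MonoidAlgebra (ZMod p) Γ)
    (fun j => (S j).ρ.asModule) hne' j₀ φ.toAddMonoidHom hφc
  refine ⟨r, ?_, fun i hi => ?_⟩
  · have : (S j₀).ρ.asAlgebraHom r = φ := LinearMap.ext fun y => hr1 y
    rw [this]
    exact hφt
  · exact LinearMap.ext fun y => hr2 i hi y

include hfin hs hne in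
/-- The traces of the members are linearly independent modulo `p`. -/
theorem bn_trace_indep [Fintype κ] (u v : κ → ℕ)
    (h : ∀ γ : Γ, ∑ j, (u j : ZMod p) * LinearMap.trace (ZMod p) (S j) ((S j).ρ γ)
      = ∑ j, (v j : ZMod p) * LinearMap.trace (ZMod p) (S j) ((S j).ρ γ)) (j₀ : κ) :
    (u j₀ : ZMod p) = (v j₀ : ZMod p) := by
  classical
  let T : (κ → ℕ) → MonoidAlgebra (ZMod p) Γ →ₗ[ZMod p] ZMod p := fun w =>
    ∑ j, (w j : ZMod p) •
      ((LinearMap.trace (ZMod p) (S j)) ∘ₗ ((S j).ρ.asAlgebraHom).toLinearMap)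
  have hT : ∀ (w : κ → ℕ) (x : MonoidAlgebra (ZMod p) Γ), T w x
      = ∑ j, (w j : ZMod p) * LinearMap.trace (ZMod p) (S j) ((S j).ρ.asAlgebraHom x) := by
    intro w x
    simp only [T, LinearMap.sum_apply, LinearMap.smul_apply, LinearMap.comp_apply,
      AlgHom.toLinearMap_apply, smul_eq_mul]
  have hTeq : T u = T v := by
    refine MonoidAlgebra.lhom_ext' fun g => LinearMap.ext_ring ?_
    simp only [LinearMap.comp_apply, MonoidAlgebra.lsingle_apply]
    rw [hT, hT]
    have : ∀ j, (S j).ρ.asAlgebraHom (MonoidAlgebra.single g (1 : ZMod p)) = (S j).ρ g :=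
      fun j => Representation.asAlgebraHom_single_one _ g
    simp only [this]
    exact h g
  obtain ⟨x, hx1, hx0⟩ := bn_trace_element S hfin hs hne j₀
  have key : ∀ w : κ → ℕ, T w x = (w j₀ : ZMod p) := by
    intro w
    rw [hT, Finset.sum_eq_single j₀]
    · rw [hx1, mul_one]
    · intro i _ hi
      rw [hx0 i hi, map_zero, mul_zero]
    · intro hj
      exact absurd (Finset.mem_univ _) hj
  rw [← key u, ← key v, hTeq]

end

end Fermat.Agent.S56.EC
end MergeWrap_S56_W2_EC_Brauer_BN_TraceElt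

section MergeWrap_S56_W2_EC_Brauer_BN_Indep -- from S56/W2/EC/Brauer/BN/Indep.lean

set_option autoImplicit false
set_option linter.style.haveILetI false

namespace Fermat.Agent.S56.EC

open Fermat.Agent.F4 Polynomial

variable {p : ℕ} [Fact p.Prime] {Γ : Type} [Group Γ]

/-! ### Simple modules and Schur's lemma -/

/-- A simple module in the sense of `BNSimple` is a simple module over the group algebra. -/
theorem BNSimple.isSimpleModule {A : Rep.{0} (ZMod p) Γ} (hA : BNSimple A) :
    IsSimpleModule (MonoidAlgebra (ZMod p) Γ) A.ρ.asModule := by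
  rw [← Representation.irreducible_iff_isSimpleModule_asModule]
  haveI : Nontrivial A := hA.1
  haveI : Nontrivial (Subrepresentation A.ρ) := by
    refine ⟨⊥, ⊤, fun h => ?_⟩
    have h1 := congrArg Subrepresentation.toSubmodule h
    exact bot_ne_top h1
  refine { eq_bot_or_eq_top := fun σ => ?_ }
  rcases hA.2 σ.toSubmodule (fun γ w hw => σ.apply_mem_toSubmodule γ hw) with h | h
  · exact Or.inl (Subrepresentation.toSubmodule_injective h)
  · exact Or.inr (Subrepresentation.toSubmodule_injective h)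

/-- **Schur**: a non-zero equivariant map between simple modules is an isomorphism. -/
theorem bn_schur {A B : Rep.{0} (ZMod p) Γ} (hA : BNSimple A) (hB : BNSimple B)
    (f : A →ₗ[ZMod p] B) (hf : ∀ (γ : Γ) (x : A), f (A.ρ γ x) = B.ρ γ (f x)) (h0 : f ≠ 0) :
    BNIso A B := by
  have hker : LinearMap.ker f = ⊥ := by
    rcases hA.2 (LinearMap.ker f) (fun γ w hw => by
      rw [LinearMap.mem_ker] at hw ⊢
      rw [hf, hw, map_zero]) with h | h
    · exact h
    · exact absurd (LinearMap.ker_eq_top.1 h) h0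
  have hrange : LinearMap.range f = ⊤ := by
    rcases hB.2 (LinearMap.range f) (fun γ w hw => by
      obtain ⟨x, rfl⟩ := hw
      exact ⟨A.ρ γ x, hf γ x⟩) with h | h
    · exact absurd (LinearMap.range_eq_bot.1 h) h0
    · exact h
  exact ⟨LinearEquiv.ofBijective f ⟨LinearMap.ker_eq_bot.1 hker, LinearMap.range_eq_top.1 hrange⟩,
    fun γ x => hf γ x⟩

/-! ### The `p`-regular part of an element -/

/-- Every element `γ` of a finite group has a `p`-regular power `γₛ` with the same trace as `γ`
on every finite module. -/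
theorem bn_exists_preg [Finite Γ] (γ : Γ) :
    ∃ γs : Γ, IsPReg p γs ∧ ∀ (A : Rep.{0} (ZMod p) Γ), Module.Finite (ZMod p) A →
      LinearMap.trace (ZMod p) A (A.ρ γ) = LinearMap.trace (ZMod p) A (A.ρ γs) := by
  have hp : p.Prime := Fact.out
  obtain ⟨a, m, hm, hn⟩ := Nat.exists_eq_pow_mul_and_not_dvd (orderOf_pos γ).ne' p hp.ne_one
  have hpm : Nat.Coprime p m := (Nat.Prime.coprime_iff_not_dvd hp).2 hm
  have cop : Nat.Coprime (p ^ a) m := Nat.Coprime.pow_left a hpm
  obtain ⟨s, hs0, hs1⟩ := Nat.chineseRemainder cop 0 1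
  obtain ⟨u, hu1, hu0⟩ := Nat.chineseRemainder cop 1 0
  have hsu : γ ^ s * γ ^ u = γ := by
    rw [← pow_add]
    have h1 : s + u ≡ 1 [MOD p ^ a * m] := by
      rw [← Nat.modEq_and_modEq_iff_modEq_mul cop]
      exact ⟨by simpa using hs0.add hu1, by simpa using hs1.add hu0⟩
    have h2 : γ ^ (s + u) = γ ^ 1 := by
      rw [pow_eq_pow_iff_modEq, hn]
      exact h1
    rw [h2, pow_one]
  have hsm : (γ ^ s) ^ m = 1 := by
    rw [← pow_mul, ← orderOf_dvd_iff_pow_eq_one, hn]
    exact Nat.mul_dvd_mul_right ((Nat.modEq_zero_iff_dvd).1 hs0) m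
  have hupa : (γ ^ u) ^ (p ^ a) = 1 := by
    rw [← pow_mul, ← orderOf_dvd_iff_pow_eq_one, hn, mul_comm u]
    exact Nat.mul_dvd_mul_left _ ((Nat.modEq_zero_iff_dvd).1 hu0)
  refine ⟨γ ^ s, ?_, fun A hA => ?_⟩
  · show (orderOf (γ ^ s)).Coprime p
    exact Nat.Coprime.coprime_dvd_left (orderOf_dvd_of_pow_eq_one hsm) hpm.symm
  · have hc : Commute (A.ρ (γ ^ s)) (A.ρ (γ ^ u)) := by
      rw [map_pow, map_pow]
      exact (Commute.refl _).pow_pow s u
    have hu : (A.ρ (γ ^ u)) ^ (p ^ a) = 1 := by
      rw [← map_pow, hupa, map_one]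
    have := bn_trace_mul_unip p (A.ρ (γ ^ s)) (A.ρ (γ ^ u)) hc a hu
    rw [← map_mul, hsu] at this
    exact this

/-! ### Independence -/

section Indep

variable [Finite Γ] {n : ℕ} (S : Fin n → Rep.{0} (ZMod p) Γ)
  (hfin : ∀ j, Module.Finite (ZMod p) (S j)) (hs : ∀ j, BNSimple (S j))
  (hne : ∀ i j, i ≠ j → ¬ BNIso (S i) (S j))

include hfin hs hne in
/-- Congruence of the exponents modulo `p`. -/
theorem bn_indep_modEq (NP NM : Fin n → ℕ)
    (h : ∀ γ : Γ, IsPReg p γ →
      ∏ j, repCharpoly (S j) γ ^ NP j = ∏ j, repCharpoly (S j) γ ^ NM j) (j₀ : Fin n) :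
    NP j₀ ≡ NM j₀ [MOD p] := by
  rw [← ZMod.natCast_eq_natCast_iff]
  have hmonic : ∀ (j : Fin n) (γ : Γ), (repCharpoly (S j) γ).Monic := fun j γ => by
    haveI := hfin j
    rw [repCharpoly_eq]
    exact LinearMap.charpoly_monic _
  have htr : ∀ (j : Fin n) (γ : Γ),
      (repCharpoly (S j) γ).nextCoeff = - LinearMap.trace (ZMod p) (S j) ((S j).ρ γ) := fun j γ => by
    haveI := hfin j
    rw [repCharpoly_eq, bn_trace_eq_neg_nextCoeff, neg_neg]
  have hnc : ∀ (w : Fin n → ℕ) (γ : Γ), (∏ j, repCharpoly (S j) γ ^ w j).nextCoeff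
      = - ∑ j, (w j : ZMod p) * LinearMap.trace (ZMod p) (S j) ((S j).ρ γ) := by
    intro w γ
    rw [Polynomial.Monic.nextCoeff_prod _ _ (fun j _ => (hmonic j γ).pow (w j)),
      ← Finset.sum_neg_distrib]
    refine Finset.sum_congr rfl fun j _ => ?_
    rw [Polynomial.Monic.nextCoeff_pow (hmonic j γ), htr, nsmul_eq_mul, mul_neg]
  have hreg : ∀ γ : Γ, IsPReg p γ →
      ∑ j, (NP j : ZMod p) * LinearMap.trace (ZMod p) (S j) ((S j).ρ γ)
        = ∑ j, (NM j : ZMod p) * LinearMap.trace (ZMod p) (S j) ((S j).ρ γ) := by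
    intro γ hγ
    have := congrArg Polynomial.nextCoeff (h γ hγ)
    rw [hnc, hnc] at this
    exact neg_injective this
  refine bn_trace_indep S hfin (fun j => (hs j).isSimpleModule)
    (fun i j hij f hf => ?_) NP NM (fun γ => ?_) j₀
  · by_contra h0
    exact hne i j hij (bn_schur (hs i) (hs j) f hf h0)
  · obtain ⟨γs, hγs, hγ⟩ := bn_exists_preg (p := p) γ
    have e : ∀ j, LinearMap.trace (ZMod p) (S j) ((S j).ρ γ)
        = LinearMap.trace (ZMod p) (S j) ((S j).ρ γs) := fun j => hγ (S j) (hfin j)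
    simp only [e]
    exact hreg γs hγs

include hfin hs hne in
/-- **(c)** independence, by induction on the sum of the exponents. -/
theorem bn_indep_aux : ∀ (N : ℕ) (NP NM : Fin n → ℕ), ∑ j, (NP j + NM j) = N →
    (∀ γ : Γ, IsPReg p γ →
      ∏ j, repCharpoly (S j) γ ^ NP j = ∏ j, repCharpoly (S j) γ ^ NM j) → NP = NM := by
  have hp : p.Prime := Fact.out
  intro N
  induction N using Nat.strong_induction_on with
  | _ N ih =>
    intro NP NM hN h
    have hmod := bn_indep_modEq S hfin hs hne NP NM h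
    have hmonic : ∀ (j : Fin n) (γ : Γ), (repCharpoly (S j) γ).Monic := fun j γ => by
      haveI := hfin j
      rw [repCharpoly_eq]
      exact LinearMap.charpoly_monic _
    -- decompose the exponents
    have hP : ∀ j, ∃ t, NP j = min (NP j) (NM j) + p * t := by
      intro j
      rcases le_total (NP j) (NM j) with hle | hle
      · exact ⟨0, by rw [min_eq_left hle, mul_zero, add_zero]⟩
      · obtain ⟨t, ht⟩ := (Nat.modEq_iff_dvd' hle).1 (hmod j).symm
        exact ⟨t, by rw [min_eq_right hle, ← ht]; omega⟩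
    have hM : ∀ j, ∃ t, NM j = min (NP j) (NM j) + p * t := by
      intro j
      rcases le_total (NP j) (NM j) with hle | hle
      · obtain ⟨t, ht⟩ := (Nat.modEq_iff_dvd' hle).1 (hmod j)
        exact ⟨t, by rw [min_eq_left hle, ← ht]; omega⟩
      · exact ⟨0, by rw [min_eq_right hle, mul_zero, add_zero]⟩
    choose P' hP' using hP
    choose M' hM' using hM
    have hprod : ∀ (w w' : Fin n → ℕ) (hw : ∀ j, w j = min (NP j) (NM j) + p * w' j) (γ : Γ),
        ∏ j, repCharpoly (S j) γ ^ w j
          = (∏ j, repCharpoly (S j) γ ^ min (NP j) (NM j)) *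
            (∏ j, repCharpoly (S j) γ ^ w' j) ^ p := by
      intro w w' hw γ
      rw [← Finset.prod_pow, ← Finset.prod_mul_distrib]
      refine Finset.prod_congr rfl fun j _ => ?_
      rw [hw j, pow_add, ← pow_mul, mul_comm p]
    have h' : ∀ γ : Γ, IsPReg p γ →
        ∏ j, repCharpoly (S j) γ ^ P' j = ∏ j, repCharpoly (S j) γ ^ M' j := by
      intro γ hγ
      have h1 := h γ hγ
      rw [hprod NP P' hP' γ, hprod NM M' hM' γ] at h1
      have hne0 : (∏ j, repCharpoly (S j) γ ^ min (NP j) (NM j)) ≠ 0 :=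
        (Polynomial.monic_prod_of_monic _ _ fun j _ => (hmonic j γ).pow _).ne_zero
      exact bn_pow_char_inj p _ _ (mul_left_cancel₀ hne0 h1)
    by_cases hz : ∀ j, P' j + M' j = 0
    · funext j
      have := hz j
      have h1 : P' j = 0 := by omega
      have h2 : M' j = 0 := by omega
      have e1 := hP' j
      have e2 := hM' j
      rw [h1, mul_zero, add_zero] at e1
      rw [h2, mul_zero, add_zero] at e2
      exact e1.trans e2.symm
    · obtain ⟨j₁, hj₁⟩ := not_forall.1 hz
      have hle : ∀ j, P' j + M' j ≤ NP j + NM j := by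
        intro j
        have h1 : P' j ≤ p * P' j := Nat.le_mul_of_pos_left _ hp.pos
        have h2 : M' j ≤ p * M' j := Nat.le_mul_of_pos_left _ hp.pos
        have e1 := hP' j
        have e2 := hM' j
        generalize p * P' j = x at h1 e1
        generalize p * M' j = y at h2 e2
        omega
      have hlt : ∑ j, (P' j + M' j) < N := by
        rw [← hN]
        refine Finset.sum_lt_sum (fun j _ => hle j) ⟨j₁, Finset.mem_univ _, ?_⟩
        have h1 : 2 * P' j₁ ≤ p * P' j₁ := Nat.mul_le_mul_right _ hp.two_le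
        have h2 : 2 * M' j₁ ≤ p * M' j₁ := Nat.mul_le_mul_right _ hp.two_le
        have e1 := hP' j₁
        have e2 := hM' j₁
        generalize p * P' j₁ = x at h1 e1
        generalize p * M' j₁ = y at h2 e2
        omega
      have := ih _ hlt P' M' rfl h'
      funext j
      have e1 := hP' j
      have e2 := hM' j
      rw [this] at e1
      exact e1.trans e2.symm

end Indep

/-- **(c)** independence. -/
theorem bnIndep (p : ℕ) [Fact p.Prime] (Γ : Type) [Group Γ] [Finite Γ] : BNIndep p Γ := by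
  intro n S hfin hs hne NP NM h
  exact bn_indep_aux S hfin hs hne _ NP NM rfl h

end Fermat.Agent.S56.EC
end MergeWrap_S56_W2_EC_Brauer_BN_Indep

section MergeWrap_S56_W2_EC_Brauer_BN -- from S56/W2/EC/Brauer/BN.lean

set_option autoImplicit false

namespace Fermat.Agent.S56.EC

/-- **(B1)** Brauer–Nesbitt. -/
theorem brauerNesbitt (p : ℕ) [Fact p.Prime] (Γ : Type) [Group Γ] [Finite Γ] :
    BrauerNesbitt p Γ :=
  brauerNesbitt_of (bnList p Γ) (bnIndep p Γ)

end Fermat.Agent.S56.EC
end MergeWrap_S56_W2_EC_Brauer_BN
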