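import Mathlib
import Fermat.Agent.MU.S56.W2.EC.Brauer.Defs

section MergeWrap_S56_W2_EC_Brauer_Ind_CycBlock -- from S56/W2/EC/Brauer/Ind/CycBlock.lean

set_option autoImplicit false

namespace Fermat.Agent.S56.EC.Ind

open Matrix Polynomial

variable {R : Type*} [CommRing R] {n : Type*}

/-- The cyclic block matrix: the block `M` at the positions `(i + 1, i)`, `i : Fin (m+1)`. -/
def cycBlock (m : ℕ) (M : Matrix n n R) : Matrix (Fin (m + 1) × n) (Fin (m + 1) × n) R :=
  Matrix.of fun p q => if p.1 = q.1 + 1 then M p.2 q.2 else 0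

/-- The nilpotent part: the block `M` at the positions `(i + 1, i)`, `i < m`. -/
def cycNil (m : ℕ) (M : Matrix n n R) : Matrix (Fin (m + 1) × n) (Fin (m + 1) × n) R :=
  Matrix.of fun p q => if (p.1 : ℕ) = (q.1 : ℕ) + 1 then M p.2 q.2 else 0

/-- The column part of the corner block. -/
def cycU (m : ℕ) (M : Matrix n n R) : Matrix (Fin (m + 1) × n) n R :=
  Matrix.of fun p b => if (p.1 : ℕ) = 0 then M p.2 b else 0

/-- The row part of the corner block. -/
def cycW [DecidableEq n] (m : ℕ) : Matrix n (Fin (m + 1) × n) R :=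
  Matrix.of fun a q => if (q.1 : ℕ) = m ∧ a = q.2 then 1 else 0

lemma cycBlock_apply (m : ℕ) (M : Matrix n n R) (p q : Fin (m + 1) × n) :
    cycBlock m M p q = if p.1 = q.1 + 1 then M p.2 q.2 else 0 := rfl

lemma cycNil_apply (m : ℕ) (M : Matrix n n R) (p q : Fin (m + 1) × n) :
    cycNil m M p q = if (p.1 : ℕ) = (q.1 : ℕ) + 1 then M p.2 q.2 else 0 := rfl

lemma cycU_apply (m : ℕ) (M : Matrix n n R) (p : Fin (m + 1) × n) (b : n) :
    cycU m M p b = if (p.1 : ℕ) = 0 then M p.2 b else 0 := rfl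

lemma cycW_apply [DecidableEq n] (m : ℕ) (a : n) (q : Fin (m + 1) × n) :
    (cycW m : Matrix n (Fin (m + 1) × n) R) a q = if (q.1 : ℕ) = m ∧ a = q.2 then 1 else 0 := rfl

variable [Fintype n] [DecidableEq n]

lemma cycBlock_eq (m : ℕ) (M : Matrix n n R) :
    cycBlock m M = cycNil m M + cycU m M * (cycW m : Matrix n (Fin (m + 1) × n) R) := by
  ext ⟨i, a⟩ ⟨j, b⟩
  simp only [Matrix.add_apply, Matrix.mul_apply, cycBlock_apply, cycNil_apply, cycU_apply,
    cycW_apply]
  have hsum : ∑ c, (if (i : ℕ) = 0 then M a c else 0) *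
      (if (j : ℕ) = m ∧ c = b then (1 : R) else 0)
      = if (i : ℕ) = 0 ∧ (j : ℕ) = m then M a b else 0 := by
    rw [Finset.sum_eq_single b]
    · by_cases hi : (i : ℕ) = 0 <;> by_cases hj : (j : ℕ) = m <;> simp [hi, hj]
    · intro c _ hc
      simp [hc]
    · intro h
      exact absurd (Finset.mem_univ b) h
  rw [hsum]
  have hj : (j : ℕ) < m + 1 := j.isLt
  have hi : (i : ℕ) < m + 1 := i.isLt
  have key : (i = j + 1) ↔ ((i : ℕ) = (j : ℕ) + 1 ∨ ((i : ℕ) = 0 ∧ (j : ℕ) = m)) := by
    rw [Fin.ext_iff, Fin.val_add_one]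
    by_cases hjl : j = Fin.last m
    · have hjm : (j : ℕ) = m := by rw [hjl]; rfl
      simp only [hjl, if_true]
      constructor
      · intro h; right; exact ⟨h, rfl⟩
      · rintro (h | h)
        · simp only [Fin.val_last] at h; omega
        · exact h.1
    · have hjm : (j : ℕ) ≠ m := fun h => hjl (Fin.ext (by simpa using h))
      simp only [hjl, if_false]
      constructor
      · intro h; left; exact h
      · rintro (h | h)
        · exact h
        · exact absurd h.2 hjm
  by_cases h1 : (i : ℕ) = (j : ℕ) + 1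
  · have h2 : ¬ ((i : ℕ) = 0 ∧ (j : ℕ) = m) := by omega
    rw [if_pos (key.2 (Or.inl h1)), if_pos h1, if_neg h2, add_zero]
  · by_cases h2 : ((i : ℕ) = 0 ∧ (j : ℕ) = m)
    · rw [if_pos (key.2 (Or.inr h2)), if_neg h1, if_pos h2, zero_add]
    · have : ¬ (i = j + 1) := fun h => (key.1 h).elim h1 h2
      rw [if_neg this, if_neg h1, if_neg h2, add_zero]

/-- Entries of the powers of the nilpotent part. -/
lemma cycNil_pow_apply (m : ℕ) (M : Matrix n n R) (k : ℕ) (p q : Fin (m + 1) × n) :
    (cycNil m M ^ k) p q = if (p.1 : ℕ) = (q.1 : ℕ) + k then (M ^ k) p.2 q.2 else 0 := by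
  induction k generalizing p q with
  | zero =>
    obtain ⟨i, a⟩ := p
    obtain ⟨j, b⟩ := q
    simp only [pow_zero, add_zero, Matrix.one_apply, Prod.mk.injEq]
    by_cases hij : i = j
    · subst hij
      simp
    · have : (i : ℕ) ≠ j := fun h => hij (Fin.ext h)
      simp [hij, this]
  | succ k ih =>
    obtain ⟨i, a⟩ := p
    obtain ⟨j, b⟩ := q
    rw [pow_succ, Matrix.mul_apply, Fintype.sum_prod_type]
    simp only [ih, cycNil_apply]
    by_cases hj : (j : ℕ) + 1 < m + 1
    · rw [Finset.sum_eq_single (⟨(j : ℕ) + 1, hj⟩ : Fin (m + 1))]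
      · simp only [if_true]
        by_cases hi : (i : ℕ) = (j : ℕ) + (k + 1)
        · have hi' : (i : ℕ) = (j : ℕ) + 1 + k := by omega
          rw [if_pos hi]
          simp only [hi', if_true]
          rw [pow_succ, Matrix.mul_apply]
        · have hi' : ¬ (i : ℕ) = (j : ℕ) + 1 + k := by omega
          rw [if_neg hi]
          simp only [hi', if_false, zero_mul, Finset.sum_const_zero]
      · intro l _ hl
        have : ¬ (l : ℕ) = (j : ℕ) + 1 := fun h => hl (Fin.ext h)
        simp only [this, if_false, mul_zero, Finset.sum_const_zero]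
      · intro h
        exact absurd (Finset.mem_univ _) h
    · have hi : ¬ (i : ℕ) = (j : ℕ) + (k + 1) := by
        have := i.isLt
        omega
      rw [if_neg hi]
      refine Finset.sum_eq_zero fun l _ => ?_
      have : ¬ (l : ℕ) = (j : ℕ) + 1 := by
        have := l.isLt
        omega
      simp only [this, if_false, mul_zero, Finset.sum_const_zero]

lemma cycNil_pow_eq_zero (m : ℕ) (M : Matrix n n R) : cycNil m M ^ (m + 1) = 0 := by
  ext p q
  rw [cycNil_pow_apply, Matrix.zero_apply, if_neg]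
  have := p.1.isLt
  omega

lemma cycNil_isNilpotent (m : ℕ) (M : Matrix n n R) : IsNilpotent (cycNil m M) :=
  ⟨m + 1, cycNil_pow_eq_zero m M⟩

/-- `det (1 - x N) = 1`: the matrix is block triangular with identity blocks on the diagonal. -/
lemma det_one_sub_smul_cycNil (m : ℕ) (M : Matrix n n R) (x : R) :
    det (1 - x • cycNil m M) = 1 := by
  have hN : BlockTriangular (cycNil m M)
      (fun p : Fin (m + 1) × n => OrderDual.toDual p.1) := by
    intro p q hpq
    rw [cycNil_apply, if_neg]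
    have h : p.1 < q.1 := hpq
    have h' : (p.1 : ℕ) < (q.1 : ℕ) := h
    omega
  have hBT : BlockTriangular (1 - x • cycNil m M)
      (fun p : Fin (m + 1) × n => OrderDual.toDual p.1) := by
    refine blockTriangular_one.sub ?_
    intro p q hpq
    rw [Matrix.smul_apply, hN hpq, smul_zero]
  rw [hBT.det]
  refine Finset.prod_eq_one fun a _ => ?_
  have : (1 - x • cycNil m M).toSquareBlock
      (fun p : Fin (m + 1) × n => OrderDual.toDual p.1) a = 1 := by
    ext ⟨p, hp⟩ ⟨q, hq⟩
    have hpq : p.1 = q.1 := by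
      have h1 : OrderDual.toDual p.1 = OrderDual.toDual q.1 := hp.trans hq.symm
      exact h1
    have h0 : cycNil m M p q = 0 := by
      rw [cycNil_apply, if_neg]
      rw [hpq]
      omega
    simp only [Matrix.toSquareBlock_def, Matrix.of_apply, Matrix.sub_apply, Matrix.smul_apply,
      h0, smul_zero, sub_zero, Matrix.one_apply, Subtype.mk.injEq]
  rw [this, det_one]

/-- The corner entry `W B (x U) = x^(m+1) M^(m+1)` for `B = Σ_{k ≤ m} (x N)^k`. -/
lemma cycW_mul_geom_mul_cycU (m : ℕ) (M : Matrix n n R) (x : R) :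
    (cycW m : Matrix n (Fin (m + 1) × n) R) *
        ((∑ k ∈ Finset.range (m + 1), (x • cycNil m M) ^ k) * (x • cycU m M))
      = x ^ (m + 1) • M ^ (m + 1) := by
  ext a b
  have hB : ∀ c : n, (∑ k ∈ Finset.range (m + 1), (x • cycNil m M) ^ k)
      ((Fin.last m, a) : Fin (m + 1) × n) ((0, c) : Fin (m + 1) × n) = x ^ m * (M ^ m) a c := by
    intro c
    rw [Matrix.sum_apply, Finset.sum_eq_single m]
    · rw [_root_.smul_pow, Matrix.smul_apply, cycNil_pow_apply, if_pos (by simp), smul_eq_mul]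
    · intro k _ hk
      rw [_root_.smul_pow, Matrix.smul_apply, cycNil_pow_apply, if_neg, smul_zero]
      simp only [Fin.val_last, Fin.val_zero, zero_add]
      exact fun h => hk h.symm
    · intro h
      exact absurd (Finset.mem_range.2 (Nat.lt_succ_self m)) h
  have hBU : ∀ p : Fin (m + 1) × n,
      ((∑ k ∈ Finset.range (m + 1), (x • cycNil m M) ^ k) * (x • cycU m M)) p b
        = ∑ c, (∑ k ∈ Finset.range (m + 1), (x • cycNil m M) ^ k) p ((0, c) : Fin (m + 1) × n)
            * (x * M c b) := by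
    intro p
    rw [Matrix.mul_apply, Fintype.sum_prod_type, Finset.sum_eq_single (0 : Fin (m + 1))]
    · refine Finset.sum_congr rfl fun c _ => ?_
      rw [Matrix.smul_apply, cycU_apply, if_pos (by simp), smul_eq_mul]
    · intro i _ hi
      refine Finset.sum_eq_zero fun c _ => ?_
      have : ¬ ((i : ℕ) = 0) := fun h => hi (Fin.ext (by simpa using h))
      rw [Matrix.smul_apply, cycU_apply, if_neg this, smul_zero, mul_zero]
    · intro h
      exact absurd (Finset.mem_univ _) h
  rw [Matrix.mul_apply, Fintype.sum_prod_type, Finset.sum_eq_single (Fin.last m)]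
  · rw [Finset.sum_eq_single a]
    · rw [cycW_apply, if_pos ⟨by simp, rfl⟩, one_mul, hBU]
      simp only [hB]
      rw [Matrix.smul_apply, pow_succ (M), Matrix.mul_apply, smul_eq_mul, Finset.mul_sum]
      refine Finset.sum_congr rfl fun c _ => ?_
      ring
    · intro c _ hc
      rw [cycW_apply, if_neg, zero_mul]
      rintro ⟨_, h⟩
      exact hc h.symm
    · intro h
      exact absurd (Finset.mem_univ _) h
  · intro i _ hi
    refine Finset.sum_eq_zero fun c _ => ?_
    rw [cycW_apply, if_neg, zero_mul]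
    rintro ⟨h, _⟩
    exact hi (Fin.ext (by simpa using h))
  · intro h
    exact absurd (Finset.mem_univ _) h

/-- **Cyclic block determinant**: `det (1 - x T) = det (1 - x^(m+1) M^(m+1))`. -/
theorem det_one_sub_smul_cycBlock (m : ℕ) (M : Matrix n n R) (x : R) :
    det (1 - x • cycBlock m M) = det (1 - x ^ (m + 1) • M ^ (m + 1)) := by
  set N : Matrix (Fin (m + 1) × n) (Fin (m + 1) × n) R := cycNil m M with hNdef
  set U : Matrix (Fin (m + 1) × n) n R := cycU m M with hUdef
  set W : Matrix n (Fin (m + 1) × n) R := cycW m with hWdef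
  set B : Matrix (Fin (m + 1) × n) (Fin (m + 1) × n) R :=
    ∑ k ∈ Finset.range (m + 1), (x • N) ^ k with hBdef
  have hgeo : (1 - x • N) * B = 1 := by
    rw [hBdef, mul_neg_geom_sum, _root_.smul_pow, hNdef, cycNil_pow_eq_zero, smul_zero, sub_zero]
  have hfac : 1 - x • cycBlock m M = (1 - x • N) * (1 - (B * (x • U)) * W) := by
    rw [mul_sub, mul_one, ← Matrix.mul_assoc, ← Matrix.mul_assoc, hgeo, Matrix.one_mul,
      cycBlock_eq, smul_add, Matrix.smul_mul, sub_add_eq_sub_sub]
  rw [hfac, det_mul, hNdef, det_one_sub_smul_cycNil, one_mul, det_one_sub_mul_comm,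
    hBdef, hWdef, hUdef, cycW_mul_geom_mul_cycU]

omit [Fintype n] [DecidableEq n] in
lemma cycBlock_map {S : Type*} [CommRing S] (f : R →+* S) (m : ℕ) (M : Matrix n n R) :
    (cycBlock m M).map f = cycBlock m (M.map f) := by
  ext p q
  simp only [Matrix.map_apply, cycBlock_apply]
  split_ifs
  · rfl
  · exact map_zero f

/-- The reversed characteristic polynomial of the cyclic block matrix. -/
theorem cycBlock_charpolyRev (m : ℕ) (M : Matrix n n R) :
    (cycBlock m M).charpolyRev = expand R (m + 1) (M ^ (m + 1)).charpolyRev := by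
  have h1 : (cycBlock m M).charpolyRev
      = det (1 - (X : R[X]) ^ (m + 1) • (M ^ (m + 1)).map C) := by
    rw [Matrix.charpolyRev, cycBlock_map, det_one_sub_smul_cycBlock, Matrix.map_pow]
  have h2 : expand R (m + 1) (M ^ (m + 1)).charpolyRev
      = det (1 - (X : R[X]) ^ (m + 1) • (M ^ (m + 1)).map C) := by
    rw [Matrix.charpolyRev, AlgHom.map_det]
    congr 1
    ext a b
    simp only [AlgHom.mapMatrix_apply, Matrix.map_apply, Matrix.sub_apply, Matrix.smul_apply,
      smul_eq_mul, map_sub, map_mul, expand_X, expand_C, Matrix.one_apply]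
    split_ifs <;> simp
  rw [h1, h2]

omit [Fintype n] [DecidableEq n] in
/-- `reflect` and `expand`. -/
lemma reflect_expand_mul (d c : ℕ) (hd : 0 < d) (f : R[X]) :
    reflect (d * c) (expand R d f) = expand R d (reflect c f) := by
  ext i
  rw [coeff_reflect, coeff_expand hd, coeff_expand hd, coeff_reflect]
  by_cases hi : i ≤ d * c
  · rw [revAt_le hi]
    by_cases hdi : d ∣ i
    · obtain ⟨j, rfl⟩ := hdi
      have hj : j ≤ c := Nat.le_of_mul_le_mul_left hi hd
      have e1 : d * c - d * j = d * (c - j) := by rw [Nat.mul_sub]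
      rw [if_pos (Dvd.intro _ rfl), e1, if_pos (Dvd.intro _ rfl), Nat.mul_div_cancel_left _ hd,
        Nat.mul_div_cancel_left _ hd, revAt_le hj]
    · rw [if_neg hdi, if_neg]
      intro h
      apply hdi
      have h2 : d ∣ d * c := Dvd.intro _ rfl
      have := (Nat.dvd_sub h2 h)
      rwa [Nat.sub_sub_self hi] at this
  · push Not at hi
    have hrev : revAt (d * c) i = i := by
      rw [revAt, Function.Embedding.coeFn_mk, if_neg (by omega)]
    rw [hrev]
    by_cases hdi : d ∣ i
    · obtain ⟨j, rfl⟩ := hdi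
      have hj : c < j := lt_of_mul_lt_mul_left hi (Nat.zero_le d)
      have hrev' : revAt c j = j := by
        rw [revAt, Function.Embedding.coeFn_mk, if_neg (by omega)]
      rw [if_pos (Dvd.intro _ rfl), Nat.mul_div_cancel_left _ hd, hrev',
        if_pos (Dvd.intro _ rfl)]
    · rw [if_neg hdi, if_neg hdi]

/-- **Characteristic polynomial of the cyclic block matrix**:
`χ_T(X) = χ_{M^(m+1)}(X^(m+1))`. -/
theorem cycBlock_charpoly (m : ℕ) (M : Matrix n n R) :
    (cycBlock m M).charpoly = expand R (m + 1) (M ^ (m + 1)).charpoly := by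
  nontriviality R
  have hP : (cycBlock m M).charpoly.natDegree = (m + 1) * Fintype.card n := by
    rw [Matrix.charpoly_natDegree_eq_dim, Fintype.card_prod, Fintype.card_fin]
  have hQ : (M ^ (m + 1)).charpoly.natDegree = Fintype.card n :=
    Matrix.charpoly_natDegree_eq_dim _
  have hrev := cycBlock_charpolyRev m M
  rw [← Matrix.reverse_charpoly, ← Matrix.reverse_charpoly] at hrev
  have h1 : (cycBlock m M).charpoly
      = reflect ((m + 1) * Fintype.card n) (cycBlock m M).charpoly.reverse := by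
    rw [Polynomial.reverse, hP, reflect_reflect]
  rw [h1, hrev, Polynomial.reverse, hQ,
    reflect_expand_mul (m + 1) (Fintype.card n) (Nat.succ_pos m), reflect_reflect]

end Fermat.Agent.S56.EC.Ind
end MergeWrap_S56_W2_EC_Brauer_Ind_CycBlock

section MergeWrap_S56_W2_EC_Brauer_Ind_Block -- from S56/W2/EC/Brauer/Ind/Block.lean

set_option autoImplicit false

namespace Fermat.Agent.S56.EC.Ind

open Matrix Polynomial

variable {R : Type*} [CommRing R]

/-- The characteristic polynomial of a matrix which is block diagonal with respect to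
`b : I → Fin N`. -/
theorem charpoly_eq_prod_toSquareBlock {I : Type*} [Fintype I] [DecidableEq I] {N : ℕ}
    (P : Matrix I I R) (b : I → Fin N) (hP : ∀ i j, b i ≠ b j → P i j = 0) :
    P.charpoly = ∏ k : Fin N, (P.toSquareBlock b k).charpoly := by
  have hBT : BlockTriangular (charmatrix P) b := by
    intro i j hij
    have hne : i ≠ j := by
      rintro rfl
      exact lt_irrefl _ hij
    rw [charmatrix_apply_ne _ _ _ hne, hP i j hij.ne', map_zero, neg_zero]
  rw [Matrix.charpoly, hBT.det_fintype]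
  refine Finset.prod_congr rfl fun k _ => ?_
  rw [Matrix.charpoly]
  congr 1
  ext ⟨i, hi⟩ ⟨j, hj⟩
  simp only [toSquareBlock_def, Matrix.of_apply, charmatrix_apply, Matrix.diagonal_apply,
    Subtype.mk.injEq]

/-- The characteristic polynomial of a "cycle" block. -/
theorem charpoly_of_cycle {J n : Type*} [Fintype J] [DecidableEq J] [Fintype n] [DecidableEq n]
    (Q : Matrix J J R) (m : ℕ) (φ : J ≃ Fin (m + 1) × n) (G : Matrix n n R)
    (hQ : ∀ i j, Q i j = if (φ i).1 = (φ j).1 + 1 then G (φ i).2 (φ j).2 else 0) :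
    Q.charpoly = expand R (m + 1) (G ^ (m + 1)).charpoly := by
  have h : Q = Matrix.reindex φ.symm φ.symm (cycBlock m G) := by
    ext i j
    rw [hQ, Matrix.reindex_apply, Matrix.submatrix_apply, Equiv.symm_symm, cycBlock_apply]
  rw [h, Matrix.charpoly_reindex, cycBlock_charpoly]

end Fermat.Agent.S56.EC.Ind
end MergeWrap_S56_W2_EC_Brauer_Ind_Block

section MergeWrap_S56_W2_EC_Brauer_Ind_Hom -- from S56/W2/EC/Brauer/Ind/Hom.lean

set_option autoImplicit false

namespace Fermat.Agent.S56.EC.Ind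

open Fermat.Agent.F4 Polynomial Matrix

variable {k : Type} [Field k]

/-- The operator `F ↦ (x ↦ g (F (s x)))` on `X → A`. -/
noncomputable def twistedShift {X A : Type} [AddCommGroup A] [Module k A]
    (g : A →ₗ[k] A) (s : X → X) : (X → A) →ₗ[k] (X → A) :=
  (g.compLeft X) ∘ₗ (LinearMap.funLeft k A s)

lemma twistedShift_apply {X A : Type} [AddCommGroup A] [Module k A]
    (g : A →ₗ[k] A) (s : X → X) (F : X → A) (x : X) :
    twistedShift g s F x = g (F (s x)) := rfl

/-- The matrix of `twistedShift g s` in the basis `Pi.basis (fun _ => b)`. -/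
lemma twistedShift_toMatrix {X A n : Type} [Fintype X] [DecidableEq X] [Fintype n]
    [DecidableEq n] [AddCommGroup A] [Module k A] (b : Module.Basis n k A)
    (g : A →ₗ[k] A) (s : X → X) (i j : Σ _ : X, n) :
    LinearMap.toMatrix (Pi.basis fun _ : X => b) (Pi.basis fun _ : X => b) (twistedShift g s) i j
      = if s i.1 = j.1 then LinearMap.toMatrix b b g i.2 j.2 else 0 := by
  obtain ⟨x, a⟩ := i
  obtain ⟨y, c⟩ := j
  rw [LinearMap.toMatrix_apply, Pi.basis_repr, Pi.basis_apply, twistedShift_apply]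
  simp only [Pi.single_apply]
  split_ifs with h
  · rw [LinearMap.toMatrix_apply]
  · rw [map_zero, map_zero, Finsupp.zero_apply]

variable {Γ : Type} [Group Γ]

/-- `Hom(k^X, A) ≃ (X → A)`, `φ ↦ (x ↦ φ (δ_x))`. -/
noncomputable def homPiEquiv (X A : Type) [Finite X] [DecidableEq X] [AddCommGroup A]
    [Module k A] : ((X → k) →ₗ[k] A) ≃ₗ[k] (X → A) :=
  ((Pi.basisFun k X).constr k).symm

lemma homPiEquiv_apply {X A : Type} [Finite X] [DecidableEq X] [AddCommGroup A] [Module k A]
    (φ : (X → k) →ₗ[k] A) (x : X) :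
    homPiEquiv (k := k) X A φ x = φ (Pi.single x 1) := by
  rw [homPiEquiv, Module.Basis.constr_symm_apply, Pi.basisFun_apply]

/-- The operator `γ` on `Hom(k[Γ/C], A)` is conjugate to the twisted shift. -/
lemma homRep_conj [Finite Γ] (C : Subgroup Γ) [DecidableEq (Γ ⧸ C)]
    (A : Rep.{0} k Γ) (γ : Γ) :
    (homPiEquiv (k := k) (Γ ⧸ C) A).conj ((homRep (permRep k C) A).ρ γ)
      = twistedShift (A.ρ γ) (fun x : Γ ⧸ C => γ⁻¹ • x) := by
  refine LinearMap.ext fun F => funext fun x => ?_
  rw [LinearEquiv.conj_apply, LinearMap.comp_apply, LinearMap.comp_apply, LinearEquiv.coe_coe,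
    LinearEquiv.coe_coe, homPiEquiv_apply, twistedShift_apply]
  have h1 : ((homRep (permRep k C) A).ρ γ ((homPiEquiv (k := k) (Γ ⧸ C) A).symm F)
      : (Γ ⧸ C → k) →ₗ[k] A) (Pi.single x 1)
      = A.ρ γ (((homPiEquiv (k := k) (Γ ⧸ C) A).symm F)
          ((permRep k C).ρ γ⁻¹ (Pi.single x (1 : k)))) := rfl
  have h2 : ((permRep k C).ρ γ⁻¹ (Pi.single x (1 : k)) : Γ ⧸ C → k)
      = Pi.single (γ⁻¹ • x) (1 : k) := by
    funext y
    rw [permRep_ρ_apply, inv_inv, Pi.single_apply, Pi.single_apply]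
    have : γ • y = x ↔ y = γ⁻¹ • x := by
      constructor
      · rintro rfl
        rw [inv_smul_smul]
      · rintro rfl
        rw [smul_inv_smul]
    simp only [this]
  rw [h1, h2, ← homPiEquiv_apply, LinearEquiv.apply_symm_apply]

end Fermat.Agent.S56.EC.Ind
end MergeWrap_S56_W2_EC_Brauer_Ind_Hom

section MergeWrap_S56_W2_EC_Brauer_Ind_Orbit -- from S56/W2/EC/Brauer/Ind/Orbit.lean

set_option autoImplicit false

namespace Fermat.Agent.S56.EC.Ind

open MulAction Function

variable {Γ : Type*} [Group Γ] {X : Type*} [MulAction Γ X]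

/-- The orbit of `x0` under `⟨γ⟩` is a cycle of length `m + 1 = #orbit`, on which `γ` acts
as `+ 1`. -/
theorem exists_cycle_equiv [Finite X] (γ : Γ) (x0 : X) :
    ∃ (m : ℕ) (φ0 : orbit (Subgroup.zpowers γ) x0 ≃ Fin (m + 1)),
      m + 1 = Nat.card (orbit (Subgroup.zpowers γ) x0) ∧
      ∀ y z : orbit (Subgroup.zpowers γ) x0, (z : X) = γ • (y : X) → φ0 z = φ0 y + 1 := by
  classical
  haveI : Fintype (orbit (Subgroup.zpowers γ) x0) := Fintype.ofFinite _
  have hcard : minimalPeriod (γ • ·) x0 = Nat.card (orbit (Subgroup.zpowers γ) x0) := by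
    rw [Nat.card_eq_fintype_card]
    exact MulAction.minimalPeriod_eq_card γ x0
  have hpos : 0 < minimalPeriod (γ • ·) x0 := by
    rw [hcard]
    haveI : Nonempty (orbit (Subgroup.zpowers γ) x0) := ⟨⟨x0, mem_orbit_self x0⟩⟩
    exact Nat.card_pos
  obtain ⟨m, hm⟩ : ∃ m, minimalPeriod (γ • ·) x0 = m + 1 :=
    ⟨minimalPeriod (γ • ·) x0 - 1, by omega⟩
  let e0 := orbitZPowersEquiv γ x0
  let e1 : ZMod (minimalPeriod (γ • ·) x0) ≃+* ZMod (m + 1) := ZMod.ringEquivCongr hm
  refine ⟨m, e0.trans e1.toEquiv, by rw [← hm, hcard], ?_⟩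
  intro y z hz
  haveI : NeZero (minimalPeriod (γ • ·) x0) := ⟨hpos.ne'⟩
  obtain ⟨c, rfl⟩ : ∃ c, y = e0.symm c := ⟨e0 y, (e0.symm_apply_apply y).symm⟩
  have hc : (((ZMod.cast c : ℤ) : ℤ) : ZMod (minimalPeriod (γ • ·) x0)) = c := by
    rw [ZMod.intCast_cast, ZMod.cast_id', id]
  have key : e0 z = c + 1 := by
    have h2 : z = e0.symm ((((ZMod.cast c : ℤ) + 1 : ℤ) : ZMod _)) := by
      apply Subtype.ext
      rw [hz, orbitZPowersEquiv_symm_apply' γ x0 ((ZMod.cast c : ℤ) + 1)]
      have h3 : e0.symm c = e0.symm (((ZMod.cast c : ℤ) : ZMod _)) := by rw [hc]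
      rw [h3, orbitZPowersEquiv_symm_apply' γ x0 (ZMod.cast c : ℤ), add_comm, zpow_add, zpow_one,
        mul_smul]
      rfl
    rw [h2, Equiv.apply_symm_apply, Int.cast_add, Int.cast_one, hc]
  show e1 (e0 z) = e1 (e0 (e0.symm c)) + 1
  rw [key, Equiv.apply_symm_apply, map_add, map_one]

end Fermat.Agent.S56.EC.Ind
end MergeWrap_S56_W2_EC_Brauer_Ind_Orbit

section MergeWrap_S56_W2_EC_Brauer_Ind_Main -- from S56/W2/EC/Brauer/Ind/Main.lean

set_option autoImplicit false

namespace Fermat.Agent.S56.EC.Ind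

open Fermat.Agent.F4 Polynomial Matrix MulAction

variable {k : Type} [Field k] {Γ : Type} [Group Γ]
variable {X A n : Type} [Fintype X] [DecidableEq X] [MulAction Γ X]
  [Fintype n] [DecidableEq n] [AddCommGroup A] [Module k A] [Module.Finite k A]

/-- The block of the orbit of `x0`. -/
theorem block_charpoly (γ : Γ) (g : A →ₗ[k] A) (b : Module.Basis n k A) {N : ℕ}
    (ε : orbitRel.Quotient (Subgroup.zpowers γ) X ≃ Fin N) (x0 : X) :
    ((LinearMap.toMatrix (Pi.basis fun _ : X => b) (Pi.basis fun _ : X => b)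
        (twistedShift g (fun x : X => γ⁻¹ • x))).toSquareBlock
        (fun i : Σ _ : X, n => ε (Quotient.mk'' i.1)) (ε (Quotient.mk'' x0))).charpoly
      = expand k (Nat.card (orbit (Subgroup.zpowers γ) x0))
          (LinearMap.charpoly (g ^ Nat.card (orbit (Subgroup.zpowers γ) x0))) := by
  obtain ⟨m, φ0, hm, hφ0⟩ := exists_cycle_equiv γ x0
  have hmem : ∀ x : X, ε (Quotient.mk'' x) = ε (Quotient.mk'' x0) ↔
      x ∈ orbit (Subgroup.zpowers γ) x0 := by
    intro x
    rw [ε.apply_eq_iff_eq, Quotient.eq'', orbitRel_apply]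
  have hγ : ∀ y : X, y ∈ orbit (Subgroup.zpowers γ) x0 →
      γ • y ∈ orbit (Subgroup.zpowers γ) x0 := by
    intro y hy
    have : γ • y = (⟨γ, Subgroup.mem_zpowers γ⟩ : Subgroup.zpowers γ) • y := rfl
    rw [this, ← MulAction.orbit_eq_iff.2 hy]
    exact mem_orbit y _
  let φ : {i : Σ _ : X, n // ε (Quotient.mk'' i.1) = ε (Quotient.mk'' x0)} ≃ Fin (m + 1) × n :=
    { toFun := fun i => (φ0 ⟨i.1.1, (hmem _).1 i.2⟩, i.1.2)
      invFun := fun q => ⟨⟨(φ0.symm q.1 : X), q.2⟩, (hmem _).2 (φ0.symm q.1).2⟩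
      left_inv := by
        rintro ⟨⟨x, a⟩, h⟩
        apply Subtype.ext
        simp only [Equiv.symm_apply_apply]
      right_inv := by
        rintro ⟨c, a⟩
        simp only [Subtype.coe_eta, Equiv.apply_symm_apply] }
  rw [← hm, ← LinearMap.charpoly_toMatrix (g ^ (m + 1)) b, ← LinearMap.toMatrix_pow]
  refine charpoly_of_cycle _ m φ _ ?_
  rintro ⟨⟨x, a⟩, hx⟩ ⟨⟨y, c⟩, hy⟩
  rw [toSquareBlock_def, Matrix.of_apply, twistedShift_toMatrix]
  have hx' := (hmem _).1 hx
  have hy' := (hmem _).1 hy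
  have hiff : γ⁻¹ • x = y ↔ φ0 ⟨x, hx'⟩ = φ0 ⟨y, hy'⟩ + 1 := by
    constructor
    · intro h
      refine hφ0 ⟨y, hy'⟩ ⟨x, hx'⟩ ?_
      show x = γ • y
      rw [← h, smul_inv_smul]
    · intro h
      have h2 := hφ0 ⟨y, hy'⟩ ⟨γ • y, hγ y hy'⟩ rfl
      have h3 : (⟨x, hx'⟩ : orbit (Subgroup.zpowers γ) x0) = ⟨γ • y, hγ y hy'⟩ :=
        φ0.injective (h.trans h2.symm)
      have h4 : x = γ • y := congrArg Subtype.val h3
      rw [h4, inv_smul_smul]
  show (if γ⁻¹ • x = y then _ else _) = if φ0 ⟨x, hx'⟩ = φ0 ⟨y, hy'⟩ + 1 then _ else _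
  simp only [hiff]
  rfl

/-- **Characteristic polynomial of the twisted shift.** -/
theorem charpoly_twistedShift (γ : Γ) (g : A →ₗ[k] A) :
    LinearMap.charpoly (twistedShift g (fun x : X => γ⁻¹ • x))
      = ∏ᶠ ω : orbitRel.Quotient (Subgroup.zpowers γ) X,
          expand k (Nat.card ω.orbit) (LinearMap.charpoly (g ^ Nat.card ω.orbit)) := by
  classical
  haveI : Fintype (orbitRel.Quotient (Subgroup.zpowers γ) X) := Fintype.ofFinite _
  let b := Module.Free.chooseBasis k A
  let ε := Fintype.equivFin (orbitRel.Quotient (Subgroup.zpowers γ) X)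
  rw [← LinearMap.charpoly_toMatrix _ (Pi.basis fun _ : X => b),
    charpoly_eq_prod_toSquareBlock _
      (fun i : Σ _ : X, Module.Free.ChooseBasisIndex k A => ε (Quotient.mk'' i.1)),
    finprod_eq_prod_of_fintype, ← Equiv.prod_comp ε.symm]
  · refine Finset.prod_congr rfl fun c _ => ?_
    obtain ⟨x0, hx0⟩ : ∃ x0 : X, (Quotient.mk'' x0 : orbitRel.Quotient _ X) = ε.symm c :=
      Quotient.exists_rep (ε.symm c)
    have hc : c = ε (Quotient.mk'' x0) := by rw [hx0, Equiv.apply_symm_apply]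
    rw [← hx0, orbitRel.Quotient.orbit_mk, hc]
    exact block_charpoly γ g b ε x0
  · rintro ⟨x, a⟩ ⟨y, c⟩ hne
    rw [twistedShift_toMatrix, if_neg]
    intro h
    apply hne
    have h' : γ⁻¹ • x = y := h
    show ε (Quotient.mk'' x) = ε (Quotient.mk'' y)
    rw [← h']
    congr 1
    rw [Quotient.eq'', orbitRel_apply]
    have : γ⁻¹ • x = (⟨γ, Subgroup.mem_zpowers γ⟩ : Subgroup.zpowers γ)⁻¹ • x := rfl
    rw [this, mem_orbit_symm]
    exact mem_orbit _ _

end Fermat.Agent.S56.EC.Ind
end MergeWrap_S56_W2_EC_Brauer_Ind_Main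

section MergeWrap_S56_W2_EC_Brauer_Ind -- from S56/W2/EC/Brauer/Ind.lean

set_option autoImplicit false

namespace Fermat.Agent.S56.EC

open Fermat.Agent.F4 Polynomial

/-- **(B2)** the characteristic polynomial of `γ` on `Hom(𝔽_p[Γ/C], A)`. -/
theorem indCharpoly (p : ℕ) [Fact p.Prime] (Γ : Type) [Group Γ] [Finite Γ] :
    IndCharpoly p Γ := by
  classical
  intro C A hA γ
  haveI := hA
  haveI : Fintype (Γ ⧸ C) := Fintype.ofFinite _
  haveI hfin : Module.Finite (ZMod p) (homRep (permRep (ZMod p) C) A) :=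
    inferInstanceAs (Module.Finite (ZMod p) ((Γ ⧸ C → ZMod p) →ₗ[ZMod p] A))
  rw [repCharpoly_eq]
  have h1 : LinearMap.charpoly ((homRep (permRep (ZMod p) C) A).ρ γ)
      = LinearMap.charpoly (Ind.twistedShift (A.ρ γ) (fun x : Γ ⧸ C => γ⁻¹ • x)) := by
    rw [← Ind.homRep_conj C A γ]
    exact (LinearEquiv.charpoly_conj (Ind.homPiEquiv (k := ZMod p) (Γ ⧸ C) A) _).symm
  rw [h1, Ind.charpoly_twistedShift]
  refine finprod_congr fun ω => ?_
  rw [repCharpoly_eq, map_pow]
  rfl

end Fermat.Agent.S56.EC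
end MergeWrap_S56_W2_EC_Brauer_Ind
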